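import Mathlib

/-!
# Kummer (x-coordinate) formulas on Weierstrass curves

For points `P, Q` on a Weierstrass curve over a field, the symmetric functions of `x(P+Q)` and
`x(P-Q)` are rational functions of `x(P)` and `x(Q)`.
-/

set_option autoImplicit false

namespace Fermat.Agent.H08

open WeierstrassCurve WeierstrassCurve.Affine WeierstrassCurve.Affine.Point

universe u

variable {F : Type u} [Field F] [DecidableEq F] {W : WeierstrassCurve.Affine F}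

/-- The x-coordinate of a point (with junk value `0` at infinity). -/
def px : W.Point → F
  | .zero => 0
  | .some x _ _ => x

/-- The y-coordinate of a point (with junk value `0` at infinity). -/
def py : W.Point → F
  | .zero => 0
  | .some _ y _ => y

omit [DecidableEq F] in
@[simp] lemma px_some {x y : F} (h : W.Nonsingular x y) : px (Point.some x y h) = x := rfl
omit [DecidableEq F] in
@[simp] lemma py_some {x y : F} (h : W.Nonsingular x y) : py (Point.some x y h) = y := rfl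
omit [DecidableEq F] in
@[simp] lemma px_zero : px (0 : W.Point) = 0 := rfl
omit [DecidableEq F] in
@[simp] lemma py_zero : py (0 : W.Point) = 0 := rfl

omit [DecidableEq F] in
lemma exists_eq_some {P : W.Point} (hP : P ≠ 0) :
    ∃ x y, ∃ h : W.Nonsingular x y, P = Point.some x y h := by
  rcases P with _ | ⟨x, y, h⟩
  · exact absurd rfl hP
  · exact ⟨x, y, h, rfl⟩

omit [DecidableEq F] in
lemma px_neg (P : W.Point) : px (-P) = px P := by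
  rcases P with _ | ⟨x, y, h⟩ <;> rfl

omit [DecidableEq F] in
lemma py_neg {P : W.Point} (hP : P ≠ 0) : py (-P) = - py P - W.a₁ * px P - W.a₃ := by
  obtain ⟨x, y, h, rfl⟩ := exists_eq_some hP
  rfl

omit [DecidableEq F] in
/-- The Weierstrass equation. -/
lemma eqn_of_ne_zero {P : W.Point} (hP : P ≠ 0) :
    py P ^ 2 + W.a₁ * px P * py P + W.a₃ * py P
      = px P ^ 3 + W.a₂ * px P ^ 2 + W.a₄ * px P + W.a₆ := by
  obtain ⟨x, y, h, rfl⟩ := exists_eq_some hP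
  exact (equation_iff _ _).mp h.1

omit [DecidableEq F] in
lemma px_eq_iff {P Q : W.Point} (hP : P ≠ 0) (hQ : Q ≠ 0) : px P = px Q ↔ P = Q ∨ P = -Q := by
  obtain ⟨x, y, h, rfl⟩ := exists_eq_some hP
  obtain ⟨x', y', h', rfl⟩ := exists_eq_some hQ
  exact X_eq_iff

lemma add_ne_zero_of_px_ne {P Q : W.Point} (hPQ : px P ≠ px Q) :
    P + Q ≠ 0 := by
  intro h
  have : P = -Q := eq_neg_of_add_eq_zero_left h
  exact hPQ (by rw [this, px_neg])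

lemma sub_ne_zero_of_px_ne {P Q : W.Point} (hPQ : px P ≠ px Q) :
    P - Q ≠ 0 := by
  intro h
  have : P = Q := sub_eq_zero.mp h
  exact hPQ (by rw [this])

/-- `(x(P+Q) + x(P-Q)) (x(P)-x(Q))²` as a polynomial in `x(P)`, `x(Q)`. -/
theorem px_add_sub_sum {P Q : W.Point} (hP : P ≠ 0) (hQ : Q ≠ 0) (hPQ : px P ≠ px Q) :
    (px (P + Q) + px (P - Q)) * (px P - px Q) ^ 2
      = 2 * px P * px Q * (px P + px Q) + W.b₂ * (px P * px Q) + W.b₄ * (px P + px Q) + W.b₆ := by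
  obtain ⟨x₁, y₁, h₁, rfl⟩ := exists_eq_some hP
  obtain ⟨x₂, y₂, h₂, rfl⟩ := exists_eq_some hQ
  simp only [px_some] at hPQ ⊢
  have e₁ := (equation_iff _ _).mp h₁.1
  have e₂ := (equation_iff _ _).mp h₂.1
  have hd : x₁ - x₂ ≠ 0 := sub_ne_zero.mpr hPQ
  rw [sub_eq_add_neg, neg_some, add_of_X_ne hPQ, add_of_X_ne hPQ, px_some, px_some]
  simp only [addX, slope_of_X_ne hPQ, negY, b₂, b₄, b₆]
  field_simp
  linear_combination 2 * e₁ + 2 * e₂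

/-- `x(P+Q) x(P-Q) (x(P)-x(Q))²` as a polynomial in `x(P)`, `x(Q)`. -/
theorem px_add_sub_prod {P Q : W.Point} (hP : P ≠ 0) (hQ : Q ≠ 0) (hPQ : px P ≠ px Q) :
    (px (P + Q) * px (P - Q)) * (px P - px Q) ^ 2
      = px P ^ 2 * px Q ^ 2 - W.b₄ * (px P * px Q) - W.b₆ * (px P + px Q) - W.b₈ := by
  obtain ⟨x₁, y₁, h₁, rfl⟩ := exists_eq_some hP
  obtain ⟨x₂, y₂, h₂, rfl⟩ := exists_eq_some hQ
  simp only [px_some] at hPQ ⊢
  have e₁ := (equation_iff _ _).mp h₁.1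
  have e₂ := (equation_iff _ _).mp h₂.1
  have hd : x₁ - x₂ ≠ 0 := sub_ne_zero.mpr hPQ
  rw [sub_eq_add_neg, neg_some, add_of_X_ne hPQ, add_of_X_ne hPQ, px_some, px_some]
  have A1 : W.addX x₁ x₂ (W.slope x₁ x₂ y₁ y₂) * (x₁ - x₂) ^ 2
      = (y₁ - y₂) ^ 2 + W.a₁ * (y₁ - y₂) * (x₁ - x₂) - (W.a₂ + x₁ + x₂) * (x₁ - x₂) ^ 2 := by
    simp only [addX, slope_of_X_ne hPQ]
    field_simp
    ring
  have A2 : W.addX x₁ x₂ (W.slope x₁ x₂ y₁ (W.negY x₂ y₂)) * (x₁ - x₂) ^ 2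
      = (y₁ + y₂ + W.a₁ * x₂ + W.a₃) ^ 2 + W.a₁ * (y₁ + y₂ + W.a₁ * x₂ + W.a₃) * (x₁ - x₂)
        - (W.a₂ + x₁ + x₂) * (x₁ - x₂) ^ 2 := by
    simp only [addX, slope_of_X_ne hPQ, negY]
    field_simp
    ring
  apply mul_right_cancel₀ (pow_ne_zero 2 hd)
  calc _ = (W.addX x₁ x₂ (W.slope x₁ x₂ y₁ y₂) * (x₁ - x₂) ^ 2) *
        (W.addX x₁ x₂ (W.slope x₁ x₂ y₁ (W.negY x₂ y₂)) * (x₁ - x₂) ^ 2) := by ring
    _ = _ := by
      rw [A1, A2]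
      simp only [b₄, b₆, b₈]
      linear_combination
        (((y₁ - y₂) ^ 2 + W.a₁ * (y₁ - y₂) * (x₁ - x₂) - (W.a₂ + x₁ + x₂) * (x₁ - x₂) ^ 2
            - (y₁ ^ 2 + W.a₁ * x₁ * y₁ + W.a₃ * y₁ - (x₁ ^ 3 + W.a₂ * x₁ ^ 2 + W.a₄ * x₁ + W.a₆))
            - (y₂ ^ 2 + W.a₁ * x₂ * y₂ + W.a₃ * y₂ - (x₂ ^ 3 + W.a₂ * x₂ ^ 2 + W.a₄ * x₂ + W.a₆)))
          + ((y₁ + y₂ + W.a₁ * x₂ + W.a₃) ^ 2 + W.a₁ * (y₁ + y₂ + W.a₁ * x₂ + W.a₃) * (x₁ - x₂)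
            - (W.a₂ + x₁ + x₂) * (x₁ - x₂) ^ 2)) * (e₁ + e₂)
        - (4 * (x₂ ^ 3 + W.a₂ * x₂ ^ 2 + W.a₄ * x₂ + W.a₆) + (W.a₁ * x₂ + W.a₃) ^ 2) * e₁
        - (2 * y₁ + W.a₁ * x₁ + W.a₃) ^ 2 * e₂

/-- The duplication formula. -/
theorem px_double {P : W.Point} (hP : P ≠ 0) (h2P : P + P ≠ 0) :
    px (P + P) * (4 * px P ^ 3 + W.b₂ * px P ^ 2 + 2 * W.b₄ * px P + W.b₆)
      = px P ^ 4 - W.b₄ * px P ^ 2 - 2 * W.b₆ * px P - W.b₈ := by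
  obtain ⟨x₁, y₁, h₁, rfl⟩ := exists_eq_some hP
  have hy : y₁ ≠ W.negY x₁ y₁ := fun h => h2P (add_self_of_Y_eq h)
  have e₁ := (equation_iff _ _).mp h₁.1
  rw [add_self_of_Y_ne hy, px_some, px_some]
  have hd : y₁ - W.negY x₁ y₁ ≠ 0 := sub_ne_zero.mpr hy
  have hψ : (y₁ - W.negY x₁ y₁) ^ 2 = 4 * x₁ ^ 3 + W.b₂ * x₁ ^ 2 + 2 * W.b₄ * x₁ + W.b₆ := by
    simp only [negY, b₂, b₄, b₆]
    linear_combination 4 * e₁
  rw [← hψ]
  have A1 : W.addX x₁ x₁ (W.slope x₁ x₁ y₁ y₁) * (y₁ - W.negY x₁ y₁) ^ 2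
      = (3 * x₁ ^ 2 + 2 * W.a₂ * x₁ + W.a₄ - W.a₁ * y₁) ^ 2
        + W.a₁ * (3 * x₁ ^ 2 + 2 * W.a₂ * x₁ + W.a₄ - W.a₁ * y₁) * (y₁ - W.negY x₁ y₁)
        - (W.a₂ + x₁ + x₁) * (y₁ - W.negY x₁ y₁) ^ 2 := by
    rw [slope_of_Y_ne rfl hy]
    simp only [addX]
    field_simp
    ring
  rw [A1]
  simp only [negY, b₄, b₆, b₈]
  linear_combination (-(W.a₁ ^ 2) - 4 * (W.a₂ + 2 * x₁)) * e₁

end Fermat.Agent.H08
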