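import Mathlib
import Fermat.Agent.H08.Kummer

/-!
# The kernel of reduction `E₁` over an arbitrary valued field

Let `v` be a valuation on a field `F` and `W` a Weierstrass curve over `F` with `v`-integral
coefficients.  We prove (with no formal groups, and in all residue characteristics):

* `InE1.add` : the set `E₁ = {P | P = 0 ∨ 1 < v (x(P))}` is closed under addition;
* `val_natCast_lt_one_of_nsmul_eq_zero` : if `0 ≠ P ∈ E₁` and `n • P = 0` then `v n < 1`;
* `val_px_le_one_of_torsion` : if `P ≠ 0`, `n • P = 0` and `v n = 1` then `v (x(P)) ≤ 1`;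
* `inE1_sub_of_congr` : integral points which agree modulo the maximal ideal, with nonsingular
  reduction, differ by an element of `E₁`.
-/

set_option autoImplicit false

namespace Fermat.Agent.H08

open WeierstrassCurve WeierstrassCurve.Affine WeierstrassCurve.Affine.Point

universe u w

variable {F : Type u} [Field F] {Γ₀ : Type w} [LinearOrderedCommGroupWithZero Γ₀]

/-- The coefficients of `W` are `v`-integral. -/
structure IsIntegralFor (v : Valuation F Γ₀) (W : WeierstrassCurve F) : Prop where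
  h₁ : v W.a₁ ≤ 1
  h₂ : v W.a₂ ≤ 1
  h₃ : v W.a₃ ≤ 1
  h₄ : v W.a₄ ≤ 1
  h₆ : v W.a₆ ≤ 1

section valuation

variable (v : Valuation F Γ₀)

lemma v_natCast_le_one (n : ℕ) : v (n : F) ≤ 1 := by
  have : (n : F) ∈ v.integer := natCast_mem _ n
  exact this

lemma v_ofNat_le_one (n : ℕ) [n.AtLeastTwo] : v (OfNat.ofNat n : F) ≤ 1 :=
  v_natCast_le_one v n

variable {v}

lemma v_add_le_one {x y : F} (hx : v x ≤ 1) (hy : v y ≤ 1) : v (x + y) ≤ 1 :=
  v.map_add_le hx hy

lemma v_sub_le_one {x y : F} (hx : v x ≤ 1) (hy : v y ≤ 1) : v (x - y) ≤ 1 :=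
  v.map_sub_le hx hy

lemma v_mul_le_one {x y : F} (hx : v x ≤ 1) (hy : v y ≤ 1) : v (x * y) ≤ 1 := by
  rw [map_mul]; exact mul_le_one' hx hy

lemma v_pow_le_one {x : F} (hx : v x ≤ 1) (n : ℕ) : v (x ^ n) ≤ 1 := by
  rw [map_pow]; exact pow_le_one' hx n

lemma v_neg_le_one {x : F} (hx : v x ≤ 1) : v (-x) ≤ 1 := by
  rwa [Valuation.map_neg]

lemma v_add_lt_one {x y : F} (hx : v x < 1) (hy : v y < 1) : v (x + y) < 1 :=
  v.map_add_lt hx hy

lemma v_sub_lt_one {x y : F} (hx : v x < 1) (hy : v y < 1) : v (x - y) < 1 :=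
  v.map_sub_lt hx hy

lemma v_mul_lt_one_left {x y : F} (hx : v x < 1) (hy : v y ≤ 1) : v (x * y) < 1 := by
  rw [map_mul]; exact mul_lt_one_of_lt_of_le hx hy

lemma v_mul_lt_one_right {x y : F} (hx : v x ≤ 1) (hy : v y < 1) : v (x * y) < 1 := by
  rw [mul_comm]; exact v_mul_lt_one_left hy hx

lemma v_neg_lt_one {x : F} (hx : v x < 1) : v (-x) < 1 := by
  rwa [Valuation.map_neg]

lemma v_pow_lt_one {x : F} (hx : v x < 1) {n : ℕ} (hn : n ≠ 0) : v (x ^ n) < 1 := by
  rw [map_pow]; exact pow_lt_one₀ zero_le hx hn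

lemma v_one_sub {x : F} (hx : v x < 1) : v (1 - x) = 1 := by
  have := v.map_sub_eq_of_lt_left (x := 1) (y := x) (by simpa using hx)
  simpa using this

lemma v_one_add {x : F} (hx : v x < 1) : v (1 + x) = 1 := by
  have := v_one_sub (v := v) (x := -x) (by rwa [Valuation.map_neg])
  simpa using this

/-- If sum and product are in the maximal ideal then so is each element. -/
lemma v_lt_one_of_sum_prod {x y : F} (hs : v (x + y) < 1) (hp : v (x * y) < 1) : v x < 1 := by
  by_contra hx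
  push Not at hx
  have hx0 : x ≠ 0 := fun h => by
    rw [h, _root_.map_zero] at hx; exact absurd hx (by simp)
  have hxi : v x⁻¹ ≤ 1 := by rw [map_inv₀]; exact inv_le_one_of_one_le₀ hx
  have h1 : v ((x + y) - x * y * x⁻¹) < 1 :=
    v_sub_lt_one hs (v_mul_lt_one_left hp hxi)
  have h2 : (x + y) - x * y * x⁻¹ = x := by field_simp; ring
  rw [h2] at h1
  exact absurd hx (not_le.mpr h1)

end valuation

section E1

variable [DecidableEq F] {v : Valuation F Γ₀} {W : WeierstrassCurve.Affine F}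

namespace IsIntegralFor

omit [DecidableEq F] in
lemma b₂ (hW : IsIntegralFor v W) : v W.b₂ ≤ 1 := by
  rw [WeierstrassCurve.b₂]
  exact v_add_le_one (v_pow_le_one hW.h₁ 2) (v_mul_le_one (v_ofNat_le_one v 4) hW.h₂)

omit [DecidableEq F] in
lemma b₄ (hW : IsIntegralFor v W) : v W.b₄ ≤ 1 := by
  rw [WeierstrassCurve.b₄]
  exact v_add_le_one (v_mul_le_one (v_ofNat_le_one v 2) hW.h₄) (v_mul_le_one hW.h₁ hW.h₃)

omit [DecidableEq F] in
lemma b₆ (hW : IsIntegralFor v W) : v W.b₆ ≤ 1 := by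
  rw [WeierstrassCurve.b₆]
  exact v_add_le_one (v_pow_le_one hW.h₃ 2) (v_mul_le_one (v_ofNat_le_one v 4) hW.h₆)

omit [DecidableEq F] in
lemma b₈ (hW : IsIntegralFor v W) : v W.b₈ ≤ 1 := by
  rw [WeierstrassCurve.b₈]
  refine v_sub_le_one (v_add_le_one (v_sub_le_one (v_add_le_one ?_ ?_) ?_) ?_) ?_
  · exact v_mul_le_one (v_pow_le_one hW.h₁ 2) hW.h₆
  · exact v_mul_le_one (v_mul_le_one (v_ofNat_le_one v 4) hW.h₂) hW.h₆
  · exact v_mul_le_one (v_mul_le_one hW.h₁ hW.h₃) hW.h₄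
  · exact v_mul_le_one hW.h₂ (v_pow_le_one hW.h₃ 2)
  · exact v_pow_le_one hW.h₄ 2

end IsIntegralFor

variable (v) in
/-- Membership in the kernel of reduction: `P = O` or `v (x(P)) > 1`. -/
def InE1 (P : W.Point) : Prop := P = 0 ∨ 1 < v (px P)

omit [DecidableEq F] in
lemma InE1.zero : InE1 v (0 : W.Point) := Or.inl rfl

omit [DecidableEq F] in
lemma InE1.v_inv_lt {P : W.Point} (h : InE1 v P) : v ((px P)⁻¹) < 1 := by
  rcases h with rfl | h
  · simp
  · rw [map_inv₀]
    exact inv_lt_one_of_one_lt₀ h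

omit [DecidableEq F] in
lemma InE1.px_ne {P : W.Point} (h : InE1 v P) (hP : P ≠ 0) : px P ≠ 0 := by
  rcases h with rfl | h
  · exact absurd rfl hP
  · intro h0; rw [h0, _root_.map_zero] at h; exact absurd h (by simp)

omit [DecidableEq F] in
lemma InE1.neg {P : W.Point} (h : InE1 v P) : InE1 v (-P) := by
  rcases h with rfl | h
  · exact Or.inl neg_zero
  · exact Or.inr (by rwa [px_neg])

/-- `x⁴ - b₄x² - 2b₆x - b₈` homogenised at infinity. -/
def DD (W : WeierstrassCurve.Affine F) (g₁ g₂ : F) : F :=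
  1 - W.b₄ * (g₁ * g₂) - W.b₆ * (g₁ * g₂ * (g₁ + g₂)) - W.b₈ * (g₁ ^ 2 * g₂ ^ 2)

/-- The numerator of `1/x(P+Q)+1/x(P-Q)`. -/
def NN (W : WeierstrassCurve.Affine F) (g₁ g₂ : F) : F :=
  2 * (g₁ + g₂) + W.b₂ * (g₁ * g₂) + W.b₄ * (g₁ * g₂ * (g₁ + g₂)) + W.b₆ * (g₁ ^ 2 * g₂ ^ 2)

lemma psi_eq_zero_of_two_torsion {P : W.Point} (hP : P ≠ 0) (h2P : P + P = 0) :
    4 * px P ^ 3 + W.b₂ * px P ^ 2 + 2 * W.b₄ * px P + W.b₆ = 0 := by
  have h1 : P = -P := eq_neg_of_add_eq_zero_left h2P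
  have h2 : py P = - py P - W.a₁ * px P - W.a₃ := by
    conv_lhs => rw [h1]
    exact py_neg hP
  have h3 := eqn_of_ne_zero hP
  simp only [WeierstrassCurve.b₂, WeierstrassCurve.b₄, WeierstrassCurve.b₆]
  linear_combination (2 * py P + W.a₁ * px P + W.a₃) * h2 - 4 * h3

/-- Uniform version of the Kummer formulas near infinity. -/
theorem uniform_formula {P Q : W.Point} (hP : P ≠ 0 → px P ≠ 0) (hQ : Q ≠ 0 → px Q ≠ 0)
    (hD : DD W (px P)⁻¹ (px Q)⁻¹ ≠ 0) :
    (P + Q ≠ 0 → px (P + Q) ≠ 0) ∧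
    ((px (P + Q))⁻¹ + (px (P - Q))⁻¹) * DD W (px P)⁻¹ (px Q)⁻¹ = NN W (px P)⁻¹ (px Q)⁻¹ ∧
    ((px (P + Q))⁻¹ * (px (P - Q))⁻¹) * DD W (px P)⁻¹ (px Q)⁻¹ = ((px P)⁻¹ - (px Q)⁻¹) ^ 2 := by
  by_cases hP0 : P = 0
  · subst hP0
    refine ⟨by simpa using hQ, ?_, ?_⟩ <;> simp [DD, NN, px_neg] <;> ring
  by_cases hQ0 : Q = 0
  · subst hQ0
    refine ⟨by simpa using hP, ?_, ?_⟩ <;> simp [DD, NN] <;> ring
  have hx := hP hP0
  have hx' := hQ hQ0
  by_cases hPQ : px P = px Q
  · -- the degenerate cases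
    have key : ∀ P : W.Point, P ≠ 0 → px P ≠ 0 → DD W (px P)⁻¹ (px P)⁻¹ ≠ 0 →
        (P + P ≠ 0 → px (P + P) ≠ 0) ∧
        (px (P + P))⁻¹ * DD W (px P)⁻¹ (px P)⁻¹ = NN W (px P)⁻¹ (px P)⁻¹ := by
      intro P hP0 hx hD
      have hD' : px P ^ 4 * DD W (px P)⁻¹ (px P)⁻¹
          = px P ^ 4 - W.b₄ * px P ^ 2 - 2 * W.b₆ * px P - W.b₈ := by
        simp only [DD]; field_simp; ring
      have hN' : px P ^ 4 * NN W (px P)⁻¹ (px P)⁻¹
          = 4 * px P ^ 3 + W.b₂ * px P ^ 2 + 2 * W.b₄ * px P + W.b₆ := by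
        simp only [NN]; field_simp; ring
      have hx4 : px P ^ 4 ≠ 0 := pow_ne_zero 4 hx
      by_cases h2 : P + P = 0
      · refine ⟨fun h => absurd h2 h, ?_⟩
        rw [psi_eq_zero_of_two_torsion hP0 h2] at hN'
        have : NN W (px P)⁻¹ (px P)⁻¹ = 0 := by
          rcases mul_eq_zero.mp hN' with h | h
          · exact absurd h hx4
          · exact h
        rw [this, h2]; simp
      · have hd := px_double hP0 h2
        rw [← hD', ← hN'] at hd
        have hd' : px (P + P) * NN W (px P)⁻¹ (px P)⁻¹ = DD W (px P)⁻¹ (px P)⁻¹ := by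
          apply mul_left_cancel₀ hx4
          linear_combination hd
        have hX : px (P + P) ≠ 0 := by
          intro h0; rw [h0, zero_mul] at hd'; exact hD hd'.symm
        refine ⟨fun _ => hX, ?_⟩
        rw [← hd']
        field_simp
    rcases (px_eq_iff hP0 hQ0).mp hPQ with rfl | hneg
    · obtain ⟨k1, k2⟩ := key P hP0 hx hD
      refine ⟨k1, ?_, ?_⟩
      · simpa using k2
      · simp
    · have hQP : Q = -P := by rw [hneg, neg_neg]
      subst hQP
      rw [px_neg] at hD ⊢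
      obtain ⟨k1, k2⟩ := key P hP0 hx hD
      refine ⟨fun h => absurd (add_neg_cancel P) h, ?_, ?_⟩
      · rw [sub_neg_eq_add, add_neg_cancel]; simpa using k2
      · simp
  · have hs := px_add_sub_sum hP0 hQ0 hPQ
    have hp := px_add_sub_prod hP0 hQ0 hPQ
    have hD' : px P ^ 2 * px Q ^ 2 * DD W (px P)⁻¹ (px Q)⁻¹
          = px P ^ 2 * px Q ^ 2 - W.b₄ * (px P * px Q) - W.b₆ * (px P + px Q) - W.b₈ := by
        simp only [DD]; field_simp; ring
    have hN' : px P ^ 2 * px Q ^ 2 * NN W (px P)⁻¹ (px Q)⁻¹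
          = 2 * px P * px Q * (px P + px Q) + W.b₂ * (px P * px Q) + W.b₄ * (px P + px Q)
            + W.b₆ := by
        simp only [NN]; field_simp; ring
    have hxx : px P ^ 2 * px Q ^ 2 ≠ 0 := mul_ne_zero (pow_ne_zero 2 hx) (pow_ne_zero 2 hx')
    rw [← hN'] at hs
    rw [← hD'] at hp
    have hne : (px (P + Q) * px (P - Q)) * (px P - px Q) ^ 2 ≠ 0 := by
      rw [hp]; exact mul_ne_zero hxx hD
    have hX : px (P + Q) ≠ 0 := fun h => hne (by rw [h]; ring)
    have hY : px (P - Q) ≠ 0 := fun h => hne (by rw [h]; ring)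
    refine ⟨fun _ => hX, ?_, ?_⟩
    · apply mul_left_cancel₀ hxx
      rw [← hs]
      calc _ = ((px (P + Q))⁻¹ + (px (P - Q))⁻¹) *
            (px P ^ 2 * px Q ^ 2 * DD W (px P)⁻¹ (px Q)⁻¹) := by ring
        _ = _ := by rw [← hp]; field_simp; ring
    · apply mul_left_cancel₀ hxx
      calc _ = ((px (P + Q))⁻¹ * (px (P - Q))⁻¹) *
            (px P ^ 2 * px Q ^ 2 * DD W (px P)⁻¹ (px Q)⁻¹) := by ring
        _ = _ := by rw [← hp]; field_simp; ring

omit [DecidableEq F] in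
lemma v_DD_eq_one (hW : IsIntegralFor v W) {g₁ g₂ : F} (h₁ : v g₁ < 1) (h₂ : v g₂ < 1) :
    v (DD W g₁ g₂) = 1 := by
  have e : DD W g₁ g₂ = 1 - (W.b₄ * (g₁ * g₂) + W.b₆ * (g₁ * g₂ * (g₁ + g₂))
      + W.b₈ * (g₁ ^ 2 * g₂ ^ 2)) := by simp only [DD]; ring
  rw [e]
  apply v_one_sub
  have h12 : v (g₁ * g₂) < 1 := v_mul_lt_one_left h₁ h₂.le
  refine v_add_lt_one (v_add_lt_one ?_ ?_) ?_
  · exact v_mul_lt_one_right hW.b₄ h12
  · exact v_mul_lt_one_right hW.b₆ (v_mul_lt_one_left h12 (v_add_lt_one h₁ h₂).le)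
  · exact v_mul_lt_one_right hW.b₈
      (v_mul_lt_one_left (v_pow_lt_one h₁ two_ne_zero) (v_pow_lt_one h₂ two_ne_zero).le)

omit [DecidableEq F] in
lemma v_NN_lt_one (hW : IsIntegralFor v W) {g₁ g₂ : F} (h₁ : v g₁ < 1) (h₂ : v g₂ < 1) :
    v (NN W g₁ g₂) < 1 := by
  have h12 : v (g₁ * g₂) < 1 := v_mul_lt_one_left h₁ h₂.le
  simp only [NN]
  refine v_add_lt_one (v_add_lt_one (v_add_lt_one ?_ ?_) ?_) ?_
  · exact v_mul_lt_one_right (v_ofNat_le_one v 2) (v_add_lt_one h₁ h₂)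
  · exact v_mul_lt_one_right hW.b₂ h12
  · exact v_mul_lt_one_right hW.b₄ (v_mul_lt_one_left h12 (v_add_lt_one h₁ h₂).le)
  · exact v_mul_lt_one_right hW.b₆
      (v_mul_lt_one_left (v_pow_lt_one h₁ two_ne_zero) (v_pow_lt_one h₂ two_ne_zero).le)

omit [DecidableEq F] in
lemma inE1_of_v_inv_lt {P : W.Point} (h0 : P ≠ 0 → px P ≠ 0) (h : v ((px P)⁻¹) < 1) :
    InE1 v P := by
  by_cases hP : P = 0
  · exact Or.inl hP
  · right
    have hx := h0 hP
    rw [map_inv₀] at h
    have hv : v (px P) ≠ 0 := (Valuation.ne_zero_iff v).mpr hx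
    exact (inv_lt_one₀ (zero_lt_iff.mpr hv)).mp h

/-- The kernel of reduction is closed under addition. -/
theorem InE1.add (hW : IsIntegralFor v W) {P Q : W.Point} (hP : InE1 v P) (hQ : InE1 v Q) :
    InE1 v (P + Q) := by
  have hD := v_DD_eq_one hW hP.v_inv_lt hQ.v_inv_lt
  have hD0 : DD W (px P)⁻¹ (px Q)⁻¹ ≠ 0 := by
    intro h; rw [h, _root_.map_zero] at hD; exact zero_ne_one hD
  obtain ⟨h1, h2, h3⟩ := uniform_formula hP.px_ne hQ.px_ne hD0
  apply inE1_of_v_inv_lt h1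
  apply v_lt_one_of_sum_prod (y := (px (P - Q))⁻¹)
  · have := v_NN_lt_one hW hP.v_inv_lt hQ.v_inv_lt
    rw [← h2, map_mul, hD, mul_one] at this
    exact this
  · have : v (((px P)⁻¹ - (px Q)⁻¹) ^ 2) < 1 :=
      v_pow_lt_one (v_sub_lt_one hP.v_inv_lt hQ.v_inv_lt) two_ne_zero
    rw [← h3, map_mul, hD, mul_one] at this
    exact this

theorem InE1.sub (hW : IsIntegralFor v W) {P Q : W.Point} (hP : InE1 v P) (hQ : InE1 v Q) :
    InE1 v (P - Q) := by
  rw [sub_eq_add_neg]; exact hP.add hW hQ.neg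

/-- The kernel of reduction as a subgroup. -/
def E1 (v : Valuation F Γ₀) (W : WeierstrassCurve.Affine F) (hW : IsIntegralFor v W) :
    AddSubgroup W.Point where
  carrier := {P | InE1 v P}
  add_mem' := fun hP hQ => InE1.add hW hP hQ
  zero_mem' := InE1.zero
  neg_mem' := fun hP => InE1.neg hP

lemma mem_E1 {hW : IsIntegralFor v W} {P : W.Point} : P ∈ E1 v W hW ↔ InE1 v P := Iff.rfl

/-- `x(P)/x(nP) ≡ n²` modulo the maximal ideal for `P` in the kernel of reduction. -/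
theorem mult_formula (hW : IsIntegralFor v W) {P : W.Point} (h1 : 1 < v (px P)) (n : ℕ) :
    InE1 v (n • P) ∧ v ((px (n • P))⁻¹ * px P - (n : F) ^ 2) < 1 := by
  have hPE : InE1 v P := Or.inr h1
  have hE : ∀ n : ℕ, InE1 v (n • P) := fun n =>
    (E1 v W hW).nsmul_mem (show P ∈ E1 v W hW from hPE) n
  refine ⟨hE n, ?_⟩
  have hx : px P ≠ 0 := by
    intro h; rw [h, _root_.map_zero] at h1; exact absurd h1 (by simp)
  have hg : v (px P)⁻¹ < 1 := hPE.v_inv_lt
  set g := (px P)⁻¹ with hgdef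
  have hgx : g * px P = 1 := inv_mul_cancel₀ hx
  have hg0 : g ≠ 0 := inv_ne_zero hx
  -- induction
  have main : ∀ n : ℕ, v ((px (n • P))⁻¹ * px P - (n : F) ^ 2) < 1 ∧
      v ((px ((n + 1) • P))⁻¹ * px P - ((n + 1 : ℕ) : F) ^ 2) < 1 := by
    intro n
    induction n with
    | zero => simp [hx]
    | succ n ih =>
      refine ⟨ih.2, ?_⟩
      obtain ⟨ih1, ih2⟩ := ih
      have hQ := hE (n + 1)
      have hgQ : v (px ((n + 1) • P))⁻¹ < 1 := hQ.v_inv_lt
      have hD := v_DD_eq_one hW hgQ hg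
      have hD0 : DD W (px ((n + 1) • P))⁻¹ g ≠ 0 := by
        intro h; rw [h, _root_.map_zero] at hD; exact zero_ne_one hD
      obtain ⟨-, h2, -⟩ := uniform_formula hQ.px_ne hPE.px_ne hD0
      have e1 : (n + 1) • P + P = (n + 1 + 1) • P := (succ_nsmul P (n + 1)).symm
      have e2 : (n + 1) • P - P = n • P := by rw [succ_nsmul, add_sub_cancel_right]
      rw [e1, e2] at h2
      set k := (px ((n + 1 + 1) • P))⁻¹ * px P with hk
      set h := (px ((n + 1) • P))⁻¹ * px P with hh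
      set l := (px (n • P))⁻¹ * px P with hl
      have ek : (px ((n + 1 + 1) • P))⁻¹ = g * k := by
        rw [hk, mul_left_comm, hgx, mul_one]
      have eh : (px ((n + 1) • P))⁻¹ = g * h := by
        rw [hh, mul_left_comm, hgx, mul_one]
      have el : (px (n • P))⁻¹ = g * l := by
        rw [hl, mul_left_comm, hgx, mul_one]
      have hhle : v h ≤ 1 := by
        have : h = (h - ((n + 1 : ℕ) : F) ^ 2) + ((n + 1 : ℕ) : F) ^ 2 := by ring
        rw [this]
        exact v_add_le_one ih2.le (v_pow_le_one (v_natCast_le_one v _) 2)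
      rw [← hgdef, ek, eh, el] at h2
      rw [eh] at hD hD0
      -- the equation for `k + l`
      set Y := W.b₄ * (g * h) + W.b₆ * (g ^ 2 * h * (h + 1)) + W.b₈ * (g ^ 3 * h ^ 2) with hY
      set Z := W.b₂ * h + W.b₄ * (g * h * (h + 1)) + W.b₆ * (g ^ 2 * h ^ 2) with hZ
      have hg1 := hg.le
      have hYle : v Y ≤ 1 := by
        refine v_add_le_one (v_add_le_one ?_ ?_) ?_
        · exact v_mul_le_one hW.b₄ (v_mul_le_one hg1 hhle)
        · exact v_mul_le_one hW.b₆ (v_mul_le_one (v_mul_le_one (v_pow_le_one hg1 2) hhle)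
            (v_add_le_one hhle (by simp)))
        · exact v_mul_le_one hW.b₈ (v_mul_le_one (v_pow_le_one hg1 3) (v_pow_le_one hhle 2))
      have hZle : v Z ≤ 1 := by
        refine v_add_le_one (v_add_le_one ?_ ?_) ?_
        · exact v_mul_le_one hW.b₂ hhle
        · exact v_mul_le_one hW.b₄ (v_mul_le_one (v_mul_le_one hg1 hhle)
            (v_add_le_one hhle (by simp)))
        · exact v_mul_le_one hW.b₆ (v_mul_le_one (v_pow_le_one hg1 2) (v_pow_le_one hhle 2))
      have hDY : DD W (g * h) g = 1 - g * Y := by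
        simp only [DD, hY]; ring
      have hNZ : NN W (g * h) g = g * (2 * (h + 1) + g * Z) := by
        simp only [NN, hZ]; ring
      have hkl : (k + l) * DD W (g * h) g = 2 * (h + 1) + g * Z := by
        apply mul_left_cancel₀ hg0
        rw [← hNZ, ← h2]; ring
      have hfin : (k - ((n + 1 + 1 : ℕ) : F) ^ 2) * DD W (g * h) g
          = 2 * (h - ((n + 1 : ℕ) : F) ^ 2) + g * Z + g * Y * (2 * (((n + 1 : ℕ) : F) ^ 2 + 1))
            - (l - (n : F) ^ 2) * DD W (g * h) g := by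
        have : (k - ((n + 1 + 1 : ℕ) : F) ^ 2) * DD W (g * h) g
          = (k + l) * DD W (g * h) g - (l - (n : F) ^ 2) * DD W (g * h) g
            - (2 * (((n + 1 : ℕ) : F) ^ 2 + 1)) * DD W (g * h) g := by
          push_cast; ring
        rw [this, hkl]
        conv_lhs => rw [hDY]
        rw [hDY]; push_cast; ring
      have : v ((k - ((n + 1 + 1 : ℕ) : F) ^ 2) * DD W (g * h) g) < 1 := by
        rw [hfin]
        refine v_sub_lt_one (v_add_lt_one (v_add_lt_one ?_ ?_) ?_) ?_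
        · exact v_mul_lt_one_right (v_ofNat_le_one v 2) ih2
        · exact v_mul_lt_one_left hg hZle
        · refine v_mul_lt_one_left (v_mul_lt_one_left hg hYle) ?_
          exact v_mul_le_one (v_ofNat_le_one v 2)
            (v_add_le_one (v_pow_le_one (v_natCast_le_one v _) 2) (by simp))
        · rw [map_mul, hD, mul_one]; exact ih1
      rwa [map_mul, hD, mul_one] at this
  exact (main n).1

/-- If a nonzero point of the kernel of reduction is killed by `n` then `v n < 1`. -/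
theorem val_natCast_lt_one_of_nsmul_eq_zero (hW : IsIntegralFor v W) {P : W.Point}
    (h1 : 1 < v (px P)) {n : ℕ} (hn : n • P = 0) : v (n : F) < 1 := by
  have h := (mult_formula hW h1 n).2
  rw [hn, px_zero, inv_zero, zero_mul, zero_sub, Valuation.map_neg, map_pow] at h
  by_contra hc
  push Not at hc
  exact absurd h (not_lt.mpr (one_le_pow_of_one_le' hc 2))

/-- Torsion points of order prime to the residue characteristic are integral. -/
theorem val_px_le_one_of_torsion (hW : IsIntegralFor v W) {P : W.Point}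
    {n : ℕ} (hn : n • P = 0) (hvn : v (n : F) = 1) : v (px P) ≤ 1 := by
  by_contra hc
  push Not at hc
  exact absurd (val_natCast_lt_one_of_nsmul_eq_zero hW hc hn) (by rw [hvn]; exact lt_irrefl _)

/-- A torsion point of `E₁` of order prime to the residue characteristic is zero. -/
theorem InE1.eq_zero_of_torsion (hW : IsIntegralFor v W) {P : W.Point} (hP : InE1 v P)
    {n : ℕ} (hn : n • P = 0) (hvn : v (n : F) = 1) : P = 0 := by
  rcases hP with h | h
  · exact h
  · exact absurd (val_px_le_one_of_torsion hW hn hvn) (not_le.mpr h)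

end E1

end Fermat.Agent.H08
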