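import Mathlib
import Fermat.Agent.H08.FormalSubgroup

/-!
# Congruent points differ by an element of the kernel of reduction

`W` is a Weierstrass curve with `v`-integral coefficients over an arbitrary valued field.
-/

set_option autoImplicit false

namespace Fermat.Agent.H08

open WeierstrassCurve WeierstrassCurve.Affine WeierstrassCurve.Affine.Point

universe u w

variable {F : Type u} [Field F] {Γ₀ : Type w} [LinearOrderedCommGroupWithZero Γ₀]
  {v : Valuation F Γ₀} {W : WeierstrassCurve.Affine F}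

/-- `ψ₂ = 2y + a₁x + a₃ = ∂W/∂Y`. -/
def psi2 (P : W.Point) : F := 2 * py P + W.a₁ * px P + W.a₃

/-- `-∂W/∂X = 3x² + 2a₂x + a₄ - a₁y`. -/
def phiX (P : W.Point) : F := 3 * px P ^ 2 + 2 * W.a₂ * px P + W.a₄ - W.a₁ * py P

/-- The (affine, integral) point `P` has nonsingular reduction. -/
def NonsingularRed (v : Valuation F Γ₀) (P : W.Point) : Prop :=
  v (psi2 P) = 1 ∨ v (phiX P) = 1

lemma psi2_sq {P : W.Point} (hP : P ≠ 0) :
    psi2 P ^ 2 = 4 * px P ^ 3 + W.b₂ * px P ^ 2 + 2 * W.b₄ * px P + W.b₆ := by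
  have h3 := eqn_of_ne_zero hP
  simp only [psi2, WeierstrassCurve.b₂, WeierstrassCurve.b₄, WeierstrassCurve.b₆]
  linear_combination 4 * h3

lemma phi2_eq {P : W.Point} (hP : P ≠ 0) :
    px P ^ 4 - W.b₄ * px P ^ 2 - 2 * W.b₆ * px P - W.b₈
      = phiX P ^ 2 + W.a₁ * phiX P * psi2 P - (W.a₂ + 2 * px P) * psi2 P ^ 2 := by
  have h3 := eqn_of_ne_zero hP
  simp only [psi2, phiX, WeierstrassCurve.b₄, WeierstrassCurve.b₆, WeierstrassCurve.b₈]
  linear_combination (W.a₁ ^ 2 + 4 * (W.a₂ + 2 * px P)) * h3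

/-- The `y`-coordinate is integral if the `x`-coordinate is. -/
lemma val_py_le_one (hW : IsIntegralFor v W) {P : W.Point} (hPx : v (px P) ≤ 1) :
    v (py P) ≤ 1 := by
  by_cases hP : P = 0
  · subst hP; simp
  have h := eqn_of_ne_zero hP
  by_contra hc
  push Not at hc
  have hy0 : py P ≠ 0 := by
    intro h0; rw [h0, _root_.map_zero] at hc; exact absurd hc (by simp)
  have hyi : v (py P)⁻¹ < 1 := by rw [map_inv₀]; exact inv_lt_one_of_one_lt₀ hc
  have hf : v (px P ^ 3 + W.a₂ * px P ^ 2 + W.a₄ * px P + W.a₆) ≤ 1 :=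
    v_add_le_one (v_add_le_one (v_add_le_one (v_pow_le_one hPx 3)
      (v_mul_le_one hW.h₂ (v_pow_le_one hPx 2))) (v_mul_le_one hW.h₄ hPx)) hW.h₆
  have h1 : v ((px P ^ 3 + W.a₂ * px P ^ 2 + W.a₄ * px P + W.a₆) * ((py P)⁻¹ * (py P)⁻¹)
      - (W.a₁ * px P + W.a₃) * (py P)⁻¹) < 1 := by
    refine v_sub_lt_one (v_mul_lt_one_right hf (v_mul_lt_one_left hyi hyi.le))
      (v_mul_lt_one_right (v_add_le_one (v_mul_le_one hW.h₁ hPx) hW.h₃) hyi)
  have h2 : (px P ^ 3 + W.a₂ * px P ^ 2 + W.a₄ * px P + W.a₆) * ((py P)⁻¹ * (py P)⁻¹)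
      - (W.a₁ * px P + W.a₃) * (py P)⁻¹ = 1 := by
    rw [← h]; field_simp; ring
  rw [h2, map_one] at h1
  exact lt_irrefl _ h1

lemma v_eq_one_of_sub {x y : F} (hx : v x = 1) (h : v (x - y) < 1) : v y = 1 := by
  have : y = x - (x - y) := by ring
  rw [this, v.map_sub_eq_of_lt_left (by rwa [hx]), hx]

lemma v_gt_one_of_mul {x y : F} (hy : v y < 1) (hxy : v (x * y) = 1) : 1 < v x := by
  by_contra hc
  push Not at hc
  exact absurd hxy (ne_of_lt (v_mul_lt_one_right hc hy))

variable [DecidableEq F]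

lemma px_sub_of_px_ne {P Q : W.Point} (hP : P ≠ 0) (hQ : Q ≠ 0) (hPQ : px P ≠ px Q) :
    ∃ ℓ : F, ℓ * (px P - px Q) = py P + py Q + W.a₁ * px Q + W.a₃ ∧
      px (P - Q) = ℓ ^ 2 + W.a₁ * ℓ - W.a₂ - px P - px Q := by
  obtain ⟨x₁, y₁, h₁, rfl⟩ := exists_eq_some hP
  obtain ⟨x₂, y₂, h₂, rfl⟩ := exists_eq_some hQ
  simp only [px_some, py_some] at hPQ ⊢
  have hd : x₁ - x₂ ≠ 0 := sub_ne_zero.mpr hPQ
  refine ⟨W.slope x₁ x₂ y₁ (W.negY x₂ y₂), ?_, ?_⟩
  · rw [slope_of_X_ne hPQ, div_mul_cancel₀ _ hd]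
    simp only [negY]; ring
  · rw [sub_eq_add_neg, neg_some, add_of_X_ne hPQ, px_some]
    simp only [addX]

/-- Integral points which agree modulo the maximal ideal and have nonsingular reduction differ by
an element of the kernel of reduction. -/
theorem inE1_sub_of_congr (hW : IsIntegralFor v W) {P Q : W.Point} (hP : P ≠ 0) (hQ : Q ≠ 0)
    (hPx : v (px P) ≤ 1) (hx : v (px P - px Q) < 1) (hy : v (py P - py Q) < 1)
    (hns : NonsingularRed v P) : InE1 v (P - Q) := by
  have hPy := val_py_le_one hW hPx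
  have hQx : v (px Q) ≤ 1 := by
    have : px Q = px P - (px P - px Q) := by ring
    rw [this]; exact v_sub_le_one hPx hx.le
  have hQy : v (py Q) ≤ 1 := val_py_le_one hW hQx
  by_cases hPQ : px P = px Q
  · rcases (px_eq_iff hP hQ).mp hPQ with rfl | hneg
    · rw [sub_self]; exact InE1.zero
    · have hQP : Q = -P := by rw [hneg, neg_neg]
      subst hQP
      rw [sub_neg_eq_add]
      by_cases h2 : P + P = 0
      · exact Or.inl h2
      right
      have hψ : v (psi2 P) < 1 := by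
        have : psi2 P = py P - py (-P) := by rw [py_neg hP, psi2]; ring
        rw [this]; exact hy
      have hφ : v (phiX P) = 1 := by
        rcases hns with h | h
        · exact absurd h (ne_of_lt hψ)
        · exact h
      have hd := px_double hP h2
      rw [phi2_eq hP, ← psi2_sq hP] at hd
      have hval : v (px (P + P) * psi2 P ^ 2) = 1 := by
        rw [hd]
        have e : phiX P ^ 2 + W.a₁ * phiX P * psi2 P - (W.a₂ + 2 * px P) * psi2 P ^ 2
          = phiX P ^ 2 + (W.a₁ * phiX P * psi2 P - (W.a₂ + 2 * px P) * psi2 P ^ 2) := by ring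
        have h1 : v (phiX P ^ 2) = 1 := by rw [map_pow, hφ, one_pow]
        rw [e, v.map_add_eq_of_lt_left, h1]
        rw [h1]
        refine v_sub_lt_one (v_mul_lt_one_right (v_mul_le_one hW.h₁ hφ.le) hψ)
          (v_mul_lt_one_right (v_add_le_one hW.h₂ (v_mul_le_one (v_ofNat_le_one v 2) hPx))
            (v_pow_lt_one hψ two_ne_zero))
      exact v_gt_one_of_mul (v_pow_lt_one hψ two_ne_zero) hval
  · obtain ⟨ℓ, hℓ, hpx⟩ := px_sub_of_px_ne hP hQ hPQ
    have hd : px P - px Q ≠ 0 := sub_ne_zero.mpr hPQ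
    have hℓ1 : 1 < v ℓ := by
      by_cases hψ : v (psi2 P) = 1
      · apply v_gt_one_of_mul hx
        rw [hℓ]
        apply v_eq_one_of_sub hψ
        have e : psi2 P - (py P + py Q + W.a₁ * px Q + W.a₃)
          = (py P - py Q) + W.a₁ * (px P - px Q) := by rw [psi2]; ring
        rw [e]
        exact v_add_lt_one hy (v_mul_lt_one_right hW.h₁ hx)
      · have hφ : v (phiX P) = 1 := hns.resolve_left hψ
        apply v_gt_one_of_mul hy
        have e1 := eqn_of_ne_zero hP
        have e2 := eqn_of_ne_zero hQ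
        have hK : ℓ * (py P - py Q) = px P ^ 2 + px P * px Q + px Q ^ 2 + W.a₂ * (px P + px Q)
            + W.a₄ - W.a₁ * py P := by
          apply mul_right_cancel₀ hd
          have : ℓ * (py P - py Q) * (px P - px Q)
            = (ℓ * (px P - px Q)) * (py P - py Q) := by ring
          rw [this, hℓ]
          linear_combination e1 - e2
        rw [hK]
        apply v_eq_one_of_sub hφ
        have e : phiX P - (px P ^ 2 + px P * px Q + px Q ^ 2 + W.a₂ * (px P + px Q)
            + W.a₄ - W.a₁ * py P) = (px P - px Q) * (2 * px P + px Q + W.a₂) := by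
          rw [phiX]; ring
        rw [e]
        exact v_mul_lt_one_left hx (v_add_le_one (v_add_le_one
          (v_mul_le_one (v_ofNat_le_one v 2) hPx) hQx) hW.h₂)
    right
    have hℓ0 : ℓ ≠ 0 := by
      intro h0; rw [h0, _root_.map_zero] at hℓ1; exact absurd hℓ1 (by simp)
    have hℓi : v ℓ⁻¹ < 1 := by rw [map_inv₀]; exact inv_lt_one_of_one_lt₀ hℓ1
    have e : px (P - Q) = ℓ ^ 2 * (1 + (W.a₁ - (W.a₂ + px P + px Q) * ℓ⁻¹) * ℓ⁻¹) := by
      rw [hpx]; field_simp; ring
    rw [e, map_mul, v_one_add, mul_one, map_pow]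
    · exact one_lt_pow₀ hℓ1 two_ne_zero
    · refine v_mul_lt_one_right (v_sub_le_one hW.h₁ (v_mul_le_one ?_ hℓi.le)) hℓi
      exact v_add_le_one (v_add_le_one hW.h₂ hPx) hQx

/-- `x`-coordinate version: if `x(P) ≡ x(Q)` then `P - Q` or `P + Q` is in the kernel of
reduction. -/
theorem inE1_sub_or_add_of_congr (hW : IsIntegralFor v W) {P Q : W.Point} (hP : P ≠ 0)
    (hQ : Q ≠ 0) (hPx : v (px P) ≤ 1) (hx : v (px P - px Q) < 1)
    (hns : NonsingularRed v P) : InE1 v (P - Q) ∨ InE1 v (P + Q) := by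
  have hPy := val_py_le_one hW hPx
  have hQx : v (px Q) ≤ 1 := by
    have : px Q = px P - (px P - px Q) := by ring
    rw [this]; exact v_sub_le_one hPx hx.le
  have e1 := eqn_of_ne_zero hP
  have e2 := eqn_of_ne_zero hQ
  have hprod : v ((py P - py Q) * (py P - (- py Q - W.a₁ * px Q - W.a₃))) < 1 := by
    have e : (py P - py Q) * (py P - (- py Q - W.a₁ * px Q - W.a₃))
      = (px P - px Q) * (px P ^ 2 + px P * px Q + px Q ^ 2 + W.a₂ * (px P + px Q)
            + W.a₄ - W.a₁ * py P) := by linear_combination e1 - e2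
    rw [e]
    refine v_mul_lt_one_left hx (v_sub_le_one (v_add_le_one (v_add_le_one (v_add_le_one
      (v_add_le_one ?_ ?_) ?_) ?_) hW.h₄) ?_)
    · exact v_pow_le_one hPx 2
    · exact v_mul_le_one hPx hQx
    · exact v_pow_le_one hQx 2
    · exact v_mul_le_one hW.h₂ (v_add_le_one hPx hQx)
    · exact v_mul_le_one hW.h₁ hPy
  by_cases hy : v (py P - py Q) < 1
  · exact Or.inl (inE1_sub_of_congr hW hP hQ hPx hx hy hns)
  · right
    have hy' : v (py P - (- py Q - W.a₁ * px Q - W.a₃)) < 1 := by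
      by_contra hc
      push Not at hy hc
      rw [map_mul] at hprod
      exact absurd hprod (not_lt.mpr (one_le_mul hy hc))
    rw [← py_neg hQ] at hy'
    have := inE1_sub_of_congr hW hP (neg_ne_zero.mpr hQ) hPx (by rwa [px_neg]) hy' hns
    rwa [sub_neg_eq_add] at this

end Fermat.Agent.H08
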