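import Mathlib
import Fermat.Prelude.Def_FLTPrelim_Ramification
import Fermat.Agent.H08.FormalSubgroup

/-!
# Basic facts on inertia groups of valuation subrings and on places above a prime
-/

set_option autoImplicit false

namespace Fermat.Agent.H08

section inertia

variable {K L : Type*} [Field K] [Field L] [Algebra K L] {A : ValuationSubring L}

/-- Elements of the inertia group act trivially modulo the maximal ideal. -/
lemma val_sub_lt_of_mem_inertia {σ : L ≃ₐ[K] L} (hσ : σ ∈ A.inertiaSubgroupIn K) {z : L}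
    (hz : A.valuation z ≤ 1) : A.valuation (σ z - z) < 1 := by
  obtain ⟨τ, hτ, rfl⟩ := hσ
  have hzA : z ∈ A := (A.valuation_le_one_iff z).mp hz
  have h1 : τ • (IsLocalRing.residue A ⟨z, hzA⟩) = IsLocalRing.residue A ⟨z, hzA⟩ := by
    have h2 : MulSemiringAction.toRingAut (A.decompositionSubgroup K)
      (IsLocalRing.ResidueField A) τ = 1 := hτ
    have h3 := congrArg (fun f : RingAut (IsLocalRing.ResidueField A) =>
      f (IsLocalRing.residue A ⟨z, hzA⟩)) h2
    simpa using h3
  rw [← IsLocalRing.ResidueField.residue_smul, ← sub_eq_zero, ← map_sub,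
    IsLocalRing.residue_eq_zero_iff, A.valuation_lt_one_iff] at h1
  exact h1

/-- The decomposition group preserves the valuation ring. -/
lemma val_apply_le_one_of_mem_inertia {σ : L ≃ₐ[K] L} (hσ : σ ∈ A.inertiaSubgroupIn K) {z : L}
    (hz : A.valuation z ≤ 1) : A.valuation (σ z) ≤ 1 := by
  have h := val_sub_lt_of_mem_inertia hσ hz
  have e : σ z = (σ z - z) + z := by ring
  rw [e]
  exact v_add_le_one h.le hz

lemma val_apply_eq_one_of_mem_inertia {σ : L ≃ₐ[K] L} (hσ : σ ∈ A.inertiaSubgroupIn K) {z : L}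
    (hz : A.valuation z = 1) : A.valuation (σ z) = 1 := by
  have h := val_sub_lt_of_mem_inertia hσ hz.le
  have e : σ z = z + (σ z - z) := by ring
  rw [e, Valuation.map_add_eq_of_lt_left _ (by rwa [hz]), hz]

end inertia

section overPrime

variable {L : Type*} [Field L] {A : ValuationSubring L} {q : ℕ}

lemma val_prime_lt_one (hA : A.LiesOverPrime q) : A.valuation (q : L) < 1 :=
  (A.mem_nonunits_iff).mp hA

lemma val_intCast_le_one (A : ValuationSubring L) (n : ℤ) : A.valuation (n : L) ≤ 1 :=
  (A.valuation_le_one_iff _).mpr (intCast_mem A n)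

lemma val_intCast_eq_one_of_isCoprime (hA : A.LiesOverPrime q) {n : ℤ}
    (hn : IsCoprime n (q : ℤ)) : A.valuation (n : L) = 1 := by
  obtain ⟨a, b, hab⟩ := hn
  have h1 : (a : L) * (n : L) = 1 - (b : L) * (q : L) := by
    have : (a : L) * (n : L) + (b : L) * (q : L) = 1 := by exact_mod_cast congrArg (Int.cast : ℤ → L) hab
    linear_combination this
  have h2 : A.valuation ((a : L) * (n : L)) = 1 := by
    rw [h1]
    exact v_one_sub (v_mul_lt_one_right (val_intCast_le_one A b) (val_prime_lt_one hA))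
  rw [map_mul] at h2
  apply le_antisymm (val_intCast_le_one A n)
  by_contra hc
  push Not at hc
  exact absurd h2 (ne_of_lt (by
    rw [mul_comm]; exact mul_lt_one_of_lt_of_le hc (val_intCast_le_one A a)))

lemma val_intCast_eq_one (hq : q.Prime) (hA : A.LiesOverPrime q) {n : ℤ}
    (hn : ¬ (q : ℤ) ∣ n) : A.valuation (n : L) = 1 :=
  val_intCast_eq_one_of_isCoprime hA
    (((Nat.prime_iff_prime_int.mp hq).coprime_iff_not_dvd.mpr hn).symm)

lemma val_natCast_eq_one (hq : q.Prime) (hA : A.LiesOverPrime q) {n : ℕ}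
    (hn : ¬ q ∣ n) : A.valuation (n : L) = 1 := by
  have := val_intCast_eq_one hq hA (n := (n : ℤ)) (by exact_mod_cast hn)
  simpa using this

lemma val_intCast_lt_one (hA : A.LiesOverPrime q) {n : ℤ}
    (hn : (q : ℤ) ∣ n) : A.valuation (n : L) < 1 := by
  obtain ⟨m, rfl⟩ := hn
  push_cast
  exact v_mul_lt_one_left (val_prime_lt_one hA) (val_intCast_le_one A m)

end overPrime

end Fermat.Agent.H08
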