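import Mathlib
import Fermat.Prelude.Def_FLTPrelim_Ramification
import Fermat.Agent.H08.Inertia

/-!
# Valuation subrings of algebraic extensions of `ℚ` have rank one

`exists_logVal`: the valuation of a valuation subring `A` of `L` (algebraic over `ℚ`) lying over
`q` admits a real valued logarithm.
-/

set_option autoImplicit false

namespace Fermat.Agent.H08

section

variable {L : Type*} [Field L] {Γ₀ : Type*} [LinearOrderedCommGroupWithZero Γ₀]

/-- Over a subfield `K`, a nonzero algebraic element has a power with the same valuation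
as an element of `K`. -/
theorem exists_pow_val_eq_of_isAlgebraic {K : Type*} [Field K] [Algebra K L]
    (v : Valuation L Γ₀) {x : L} (hx : x ≠ 0) (halg : IsAlgebraic K x) :
    ∃ n : ℕ, 0 < n ∧ ∃ r : K, r ≠ 0 ∧ v x ^ n = v (algebraMap K L r) := by
  classical
  obtain ⟨f, hf0, hfx⟩ := halg
  have hvx : v x ≠ 0 := (Valuation.ne_zero_iff v).mpr hx
  have hsupp : f.support.Nonempty := by
    rw [Finset.nonempty_iff_ne_empty]; exact fun h => hf0 (Polynomial.support_eq_empty.mp h)
  obtain ⟨i, hi, hmax⟩ := Finset.exists_max_image f.support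
    (fun i => v (algebraMap K L (f.coeff i) * x ^ i)) hsupp
  have hterm : ∀ j ∈ f.support, algebraMap K L (f.coeff j) * x ^ j ≠ 0 := by
    intro j hj
    refine mul_ne_zero ?_ (pow_ne_zero j hx)
    rw [Ne, map_eq_zero_iff _ (algebraMap K L).injective]
    exact Polynomial.mem_support_iff.mp hj
  have hex : ∃ j ∈ f.support, j ≠ i ∧
      v (algebraMap K L (f.coeff j) * x ^ j) = v (algebraMap K L (f.coeff i) * x ^ i) := by
    by_contra hcon
    push Not at hcon
    have h1 := v.map_sum_eq_of_lt (s := f.support)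
      (f := fun j => algebraMap K L (f.coeff j) * x ^ j) (j := i) hi (by
        intro j hj
        rw [Finset.mem_sdiff, Finset.mem_singleton] at hj
        exact lt_of_le_of_ne (hmax j hj.1) (hcon j hj.1 hj.2))
    have h2 : ∑ j ∈ f.support, algebraMap K L (f.coeff j) * x ^ j = 0 := by
      rw [← hfx, Polynomial.aeval_def, Polynomial.eval₂_eq_sum]; rfl
    rw [h2, _root_.map_zero] at h1
    exact hterm i hi ((Valuation.zero_iff v).mp h1.symm)
  obtain ⟨j, hj, hji, hv⟩ := hex
  have key : ∀ i j : ℕ, i ∈ f.support → j ∈ f.support → j < i →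
      v (algebraMap K L (f.coeff j) * x ^ j) = v (algebraMap K L (f.coeff i) * x ^ i) →
      ∃ n : ℕ, 0 < n ∧ ∃ r : K, r ≠ 0 ∧ v x ^ n = v (algebraMap K L r) := by
    intro i j hi hj hlt hv
    refine ⟨i - j, Nat.sub_pos_of_lt hlt, f.coeff j / f.coeff i, ?_, ?_⟩
    · exact div_ne_zero (Polynomial.mem_support_iff.mp hj) (Polynomial.mem_support_iff.mp hi)
    · have hci : v (algebraMap K L (f.coeff i)) ≠ 0 := by
        rw [Valuation.ne_zero_iff, Ne, map_eq_zero_iff _ (algebraMap K L).injective]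
        exact Polynomial.mem_support_iff.mp hi
      rw [map_div₀, map_div₀, eq_div_iff hci]
      apply mul_left_cancel₀ (pow_ne_zero j hvx)
      rw [map_mul, map_mul, map_pow, map_pow] at hv
      rw [mul_comm (v x ^ j) (v (algebraMap K L (f.coeff j))), hv, ← mul_assoc, ← pow_add,
        Nat.add_sub_cancel' hlt.le, mul_comm]
  rcases lt_or_gt_of_ne hji with h | h
  · exact key i j hi hj h hv
  · exact key j i hj hi h hv.symm

end

section overQ

variable {L : Type*} [Field L] [CharZero L] {A : ValuationSubring L} {q : ℕ}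

omit [CharZero L] in
lemma exists_pow_val_nat (hq : q.Prime) (hA : A.LiesOverPrime q) {n : ℕ} (hn : n ≠ 0) :
    ∃ j : ℕ, A.valuation (n : L) = A.valuation (q : L) ^ j := by
  obtain ⟨e, m, hm, rfl⟩ := Nat.exists_eq_pow_mul_and_not_dvd hn q hq.ne_one
  refine ⟨e, ?_⟩
  push_cast
  rw [map_mul, map_pow, val_natCast_eq_one hq hA hm, mul_one]

lemma val_prime_ne_zero (A : ValuationSubring L) (hq : q.Prime) : A.valuation (q : L) ≠ 0 := by
  rw [Valuation.ne_zero_iff]; exact_mod_cast hq.ne_zero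

lemma exists_zpow_val_rat (hq : q.Prime) (hA : A.LiesOverPrime q) {r : ℚ} (hr : r ≠ 0) :
    ∃ j : ℤ, A.valuation (r : L) = A.valuation (q : L) ^ j := by
  have hden : r.den ≠ 0 := r.den_ne_zero
  have hnum : r.num.natAbs ≠ 0 := Int.natAbs_ne_zero.mpr (Rat.num_ne_zero.mpr hr)
  obtain ⟨i, hi⟩ := exists_pow_val_nat (L := L) hq hA hnum
  obtain ⟨j, hj⟩ := exists_pow_val_nat (L := L) hq hA hden
  refine ⟨i - j, ?_⟩
  have h1 : A.valuation ((r.num : ℤ) : L) = A.valuation (q : L) ^ i := by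
    rw [← hi]
    rcases Int.natAbs_eq r.num with h | h
    · conv_lhs => rw [h]
      simp
    · conv_lhs => rw [h]
      simp
  rw [Rat.cast_def, map_div₀, h1, hj, zpow_sub₀ (val_prime_ne_zero A hq), zpow_natCast,
    zpow_natCast]

variable [Algebra ℚ L] [Algebra.IsAlgebraic ℚ L]

lemma exists_pow_val_eq_zpow (hq : q.Prime) (hA : A.LiesOverPrime q) {x : L} (hx : x ≠ 0) :
    ∃ n : ℕ, 0 < n ∧ ∃ j : ℤ, A.valuation x ^ n = A.valuation (q : L) ^ j := by
  obtain ⟨n, hn, r, hr, h⟩ := exists_pow_val_eq_of_isAlgebraic (K := ℚ) A.valuation hx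
    (Algebra.IsAlgebraic.isAlgebraic x)
  obtain ⟨j, hj⟩ := exists_zpow_val_rat (L := L) hq hA hr
  refine ⟨n, hn, j, ?_⟩
  rw [h, ← hj, eq_ratCast]

theorem mulArchimedean_valueGroup (hq : q.Prime) (hA : A.LiesOverPrime q) :
    MulArchimedean A.ValueGroup := by
  refine ⟨fun x y hy => ?_⟩
  by_cases hx1 : x ≤ 1
  · exact ⟨0, by simpa using hx1⟩
  push Not at hx1
  obtain ⟨X, rfl⟩ := A.valuation_surjective x
  obtain ⟨Y, rfl⟩ := A.valuation_surjective y
  have hX : X ≠ 0 := by
    rintro rfl; rw [_root_.map_zero] at hx1; exact absurd hx1 (by simp)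
  have hY : Y ≠ 0 := by
    rintro rfl; rw [_root_.map_zero] at hy; exact absurd hy (by simp)
  obtain ⟨m, hm, i, hi⟩ := exists_pow_val_eq_zpow hq hA hX
  obtain ⟨n, hn, j, hj⟩ := exists_pow_val_eq_zpow hq hA hY
  set Q := A.valuation (q : L) with hQ
  have hQ1 : Q < 1 := val_prime_lt_one hA
  have hQ0 : 0 < Q := zero_lt_iff.mpr (val_prime_ne_zero A hq)
  have hj0 : j ≤ -1 := by
    by_contra hc
    push Not at hc
    have h0 : 0 ≤ j := by omega
    obtain ⟨k, rfl⟩ := Int.eq_ofNat_of_zero_le h0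
    have h1 : 1 < A.valuation Y ^ n := one_lt_pow₀ hy hn.ne'
    rw [hj, zpow_natCast] at h1
    exact absurd h1 (not_lt.mpr (pow_le_one' hQ1.le k))
  refine ⟨n * i.natAbs, ?_⟩
  calc A.valuation X ≤ A.valuation X ^ m := le_self_pow hx1.le hm.ne'
    _ = Q ^ i := hi
    _ ≤ Q ^ (j * i.natAbs) := by
        apply zpow_le_zpow_right_of_le_one₀ hQ0 hQ1.le
        have : (i.natAbs : ℤ) = |i| := Int.natCast_natAbs i
        rw [this]
        nlinarith [neg_abs_le i, abs_nonneg i]
    _ = A.valuation Y ^ (n * i.natAbs) := by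
        rw [pow_mul, hj, zpow_mul, zpow_natCast]

end overQ

/-- `w` is a real logarithm of the valuation `v` (with the additive sign convention). -/
structure IsLogVal {L : Type*} [Field L] {Γ₀ : Type*} [LinearOrderedCommGroupWithZero Γ₀]
    (v : Valuation L Γ₀) (w : L → ℝ) : Prop where
  map_mul : ∀ x y : L, x ≠ 0 → y ≠ 0 → w (x * y) = w x + w y
  lt_iff : ∀ x y : L, x ≠ 0 → y ≠ 0 → (v x < v y ↔ w y < w x)

theorem exists_isLogVal_of_mulArchimedean {L : Type*} [Field L] {Γ₀ : Type*}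
    [LinearOrderedCommGroupWithZero Γ₀] [MulArchimedean Γ₀] (v : Valuation L Γ₀) :
    ∃ w : L → ℝ, IsLogVal v w := by
  classical
  obtain ⟨f, hf⟩ := Archimedean.exists_orderAddMonoidHom_real_injective (Additive Γ₀ˣ)
  have hmono : StrictMono f := f.monotone'.strictMono_of_injective hf
  refine ⟨fun x => if hx : x = 0 then 0 else
    - f (Additive.ofMul (Units.mk0 (v x) ((Valuation.ne_zero_iff v).mpr hx))), ⟨?_, ?_⟩⟩
  · intro x y hx hy
    simp only [hx, hy, mul_eq_zero, or_self, dite_false]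
    rw [← neg_add, ← map_add, ← ofMul_mul]
    congr 3
    ext
    simp
  · intro x y hx hy
    simp only [hx, hy, dite_false, neg_lt_neg_iff]
    rw [hmono.lt_iff_lt, Additive.ofMul_lt]
    rfl

theorem exists_isLogVal {L : Type*} [Field L] [CharZero L] [Algebra ℚ L] [Algebra.IsAlgebraic ℚ L]
    {A : ValuationSubring L} {q : ℕ} (hq : q.Prime) (hA : A.LiesOverPrime q) :
    ∃ w : L → ℝ, IsLogVal A.valuation w := by
  have := mulArchimedean_valueGroup hq hA
  exact exists_isLogVal_of_mulArchimedean A.valuation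

namespace IsLogVal

variable {L : Type*} [Field L] {Γ₀ : Type*} [LinearOrderedCommGroupWithZero Γ₀]
  {v : Valuation L Γ₀} {w : L → ℝ}

lemma eq_iff (hw : IsLogVal v w) {x y : L} (hx : x ≠ 0) (hy : y ≠ 0) : v x = v y ↔ w x = w y := by
  constructor
  · intro h
    apply le_antisymm
    · by_contra hc; push Not at hc
      exact absurd ((hw.lt_iff x y hx hy).mpr hc) (by rw [h]; exact lt_irrefl _)
    · by_contra hc; push Not at hc
      exact absurd ((hw.lt_iff y x hy hx).mpr hc) (by rw [h]; exact lt_irrefl _)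
  · intro h
    apply le_antisymm
    · by_contra hc; push Not at hc
      exact absurd ((hw.lt_iff y x hy hx).mp hc) (by rw [h]; exact lt_irrefl _)
    · by_contra hc; push Not at hc
      exact absurd ((hw.lt_iff x y hx hy).mp hc) (by rw [h]; exact lt_irrefl _)

lemma le_iff (hw : IsLogVal v w) {x y : L} (hx : x ≠ 0) (hy : y ≠ 0) : v x ≤ v y ↔ w y ≤ w x := by
  rw [← not_lt, ← not_lt, hw.lt_iff y x hy hx]

lemma one (hw : IsLogVal v w) : w 1 = 0 := by
  have := hw.map_mul 1 1 one_ne_zero one_ne_zero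
  rw [mul_one] at this; linarith

lemma pow (hw : IsLogVal v w) {x : L} (hx : x ≠ 0) (n : ℕ) : w (x ^ n) = n * w x := by
  induction n with
  | zero => simp [hw.one]
  | succ n ih =>
    rw [pow_succ, hw.map_mul _ _ (pow_ne_zero n hx) hx, ih]; push_cast; ring

lemma inv (hw : IsLogVal v w) {x : L} (hx : x ≠ 0) : w x⁻¹ = - w x := by
  have := hw.map_mul x x⁻¹ hx (inv_ne_zero hx)
  rw [mul_inv_cancel₀ hx, hw.one] at this; linarith

lemma zpow (hw : IsLogVal v w) {x : L} (hx : x ≠ 0) (n : ℤ) : w (x ^ n) = n * w x := by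
  cases n with
  | ofNat n => simpa using hw.pow hx n
  | negSucc n =>
    rw [zpow_negSucc, hw.inv (pow_ne_zero _ hx), hw.pow hx]
    push_cast; ring

lemma pos_iff (hw : IsLogVal v w) {x : L} (hx : x ≠ 0) : v x < 1 ↔ 0 < w x := by
  rw [← hw.one, ← hw.lt_iff x 1 hx one_ne_zero, map_one]

lemma eq_zero_iff (hw : IsLogVal v w) {x : L} (hx : x ≠ 0) : v x = 1 ↔ w x = 0 := by
  rw [← hw.one, ← hw.eq_iff hx one_ne_zero, map_one]

lemma nonneg_iff (hw : IsLogVal v w) {x : L} (hx : x ≠ 0) : v x ≤ 1 ↔ 0 ≤ w x := by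
  rw [← hw.one, ← hw.le_iff hx one_ne_zero, map_one]

end IsLogVal

end Fermat.Agent.H08
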