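import Mathlib

/-!
# The tent map recursion
-/

set_option autoImplicit false

namespace Fermat.Agent.H08

/-- Two representatives of the distance to `2Nℤ` coincide. -/
lemma tent_unique {N x y z : ℝ} (hN : 0 < N) {j : ℤ} (hx : x = |z|) (hxN : x ≤ N)
    (hy : y = |z - 2 * j * N|) (hyN : y ≤ N) : x = y := by
  rw [hx] at hxN ⊢
  rw [hy] at hyN ⊢
  rw [abs_le] at hxN hyN
  rcases lt_trichotomy j 0 with hj | hj | hj
  · have h1 : (j : ℝ) ≤ -1 := by exact_mod_cast Int.le_sub_one_of_lt hj
    have h3 : 2 * (j : ℝ) * N = -2 * N := by nlinarith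
    have h2 : z = -N := by nlinarith
    rw [h3, h2, abs_of_nonpos (by linarith), abs_of_nonneg (by linarith)]; ring
  · subst hj; simp
  · have h1 : (1 : ℝ) ≤ j := by exact_mod_cast hj
    have h3 : 2 * (j : ℝ) * N = 2 * N := by nlinarith
    have h2 : z = N := by nlinarith
    rw [h3, h2, abs_of_nonneg (by linarith), abs_of_nonpos (by linarith)]; ring

/-- The tent recursion: `r (m)` is the distance from `m * r 1` to `2Nℤ`. -/
theorem tent_recursion {N : ℝ} (hN : 0 < N) {M : ℕ} {r : ℕ → ℝ} (h0 : r 0 = 0)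
    (hr0 : ∀ m ≤ M, 0 ≤ r m) (hrN : ∀ m ≤ M, r m ≤ N)
    (hrec : ∀ m, m + 2 ≤ M → r (m + 2) + r m
      = |r (m + 1) - r 1| + min (r (m + 1) + r 1) (2 * N - (r (m + 1) + r 1))) :
    ∀ m ≤ M, ∃ k : ℤ, r m = |m * r 1 - 2 * k * N| := by
  have main : ∀ m, m + 1 ≤ M → (∃ k : ℤ, r m = |m * r 1 - 2 * k * N|) ∧
      (∃ k : ℤ, r (m + 1) = |(m + 1 : ℕ) * r 1 - 2 * k * N|) := by
    intro m
    induction m with
    | zero =>
      intro hM
      refine ⟨⟨0, by simp [h0]⟩, ⟨0, ?_⟩⟩
      simp only [Nat.zero_add, Nat.cast_one, one_mul, Int.cast_zero, mul_zero, zero_mul, sub_zero]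
      exact (abs_of_nonneg (hr0 1 (by omega))).symm
    | succ m ih =>
      intro hM
      obtain ⟨⟨k, hk⟩, ⟨l, hl⟩⟩ := ih (by omega)
      refine ⟨⟨l, hl⟩, ?_⟩
      have hrec' := hrec m (by omega)
      have a1 := hr0 1 (by omega)
      have b1 := hrN 1 (by omega)
      have am := hr0 m (by omega)
      have bm := hrN m (by omega)
      have am1 := hr0 (m + 1) (by omega)
      have bm1 := hrN (m + 1) (by omega)
      have am2 := hr0 (m + 2) (by omega)
      have bm2 := hrN (m + 2) (by omega)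
      set s : ℝ := ((m + 1 : ℕ) : ℝ) * r 1 - 2 * l * N with hs
      have hm : r m = |(s - r 1) - 2 * ((k - l : ℤ) : ℝ) * N| := by
        rw [hk]; congr 1; rw [hs]; push_cast; ring
      rcases le_or_gt 0 s with hs0 | hs0
      · -- `s ≥ 0`
        rw [abs_of_nonneg hs0] at hl
        have h1 : |s - r 1| ≤ N := by rw [abs_le]; constructor <;> linarith
        have h2 : |s - r 1| = r m := tent_unique hN rfl h1 hm bm
        rw [hl, h2] at hrec'
        have h3 : r (m + 2) = min (s + r 1) (2 * N - (s + r 1)) := by linarith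
        rcases le_total (s + r 1) (2 * N - (s + r 1)) with h4 | h4
        · refine ⟨l, ?_⟩
          rw [min_eq_left h4] at h3
          show r (m + 2) = _
          rw [h3, ← abs_of_nonneg (show 0 ≤ s + r 1 by linarith)]
          congr 1; rw [hs]; push_cast; ring
        · refine ⟨l + 1, ?_⟩
          rw [min_eq_right h4] at h3
          show r (m + 2) = _
          rw [h3, ← abs_of_nonneg (show 0 ≤ 2 * N - (s + r 1) by linarith), ← abs_neg]
          congr 1; rw [hs]; push_cast; ring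
      · -- `s < 0`
        rw [abs_of_neg hs0] at hl
        have h1 : |r (m + 1) - r 1| = |s + r 1| := by
          rw [hl, ← abs_neg]; congr 1; ring
        have h2 : min (r (m + 1) + r 1) (2 * N - (r (m + 1) + r 1)) = r m := by
          rcases le_total (r (m + 1) + r 1) (2 * N - (r (m + 1) + r 1)) with h4 | h4
          · rw [min_eq_left h4]
            apply tent_unique hN (z := s - r 1) (j := k - l) _ (by linarith) hm bm
            rw [hl, abs_of_nonpos (by linarith)]; ring
          · rw [min_eq_right h4]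
            apply tent_unique hN (z := s - r 1 + 2 * N) (j := k - l + 1) _ (by linarith) _ bm
            · rw [abs_of_nonneg (by linarith), hl]; ring
            · rw [hm]; congr 1; push_cast; ring
        rw [h1, h2] at hrec'
        refine ⟨l, ?_⟩
        show r (m + 2) = _
        have h3 : r (m + 2) = |s + r 1| := by linarith
        rw [h3]; congr 1; rw [hs]; push_cast; ring
  intro m hm
  rcases m with _ | m
  · exact ⟨0, by simp [h0]⟩
  · exact (main m hm).2

/-- The final arithmetic step: periodicity forces `p * r 1 ∈ 2Nℤ`. -/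
theorem tent_final {N : ℝ} (hN : 0 < N) {p : ℕ} (hp : 5 ≤ p) {r : ℕ → ℝ} (h0 : r 0 = 0)
    (hr0 : ∀ m ≤ p - 1, 0 ≤ r m) (hrN : ∀ m ≤ p - 1, r m ≤ N)
    (hrec : ∀ m, m + 2 ≤ p - 1 → r (m + 2) + r m
      = |r (m + 1) - r 1| + min (r (m + 1) + r 1) (2 * N - (r (m + 1) + r 1)))
    (h1 : 0 < r 1) (h1N : r 1 < N)
    (hp1 : r (p - 1) = r 1) (hp2 : r (p - 2) = r 2) :
    ∃ k : ℤ, p * r 1 = 2 * k * N := by
  have main := tent_recursion hN h0 hr0 hrN hrec
  obtain ⟨k1, hk1⟩ := main (p - 1) le_rfl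
  obtain ⟨k2, hk2⟩ := main (p - 2) (by omega)
  obtain ⟨k3, hk3⟩ := main 2 (by omega)
  rw [hp1, Nat.cast_sub (by omega)] at hk1
  rw [hp2, Nat.cast_sub (by omega)] at hk2
  push_cast at hk1 hk2 hk3
  rcases abs_cases ((((p : ℝ) - 1) * r 1 - 2 * k1 * N)) with ⟨h, -⟩ | ⟨h, -⟩
  · -- `(p - 2) r 1 = 2 k1 N`
    rw [h] at hk1
    exfalso
    have e1 : (p : ℝ) * r 1 = 2 * r 1 + 2 * k1 * N := by linarith
    have e2 : r 2 = |2 * ((k1 - k2 : ℤ) : ℝ) * N| := by
      rw [hk2]; congr 1; push_cast; linarith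
    have b2 := hrN 2 (by omega)
    have hz : k1 - k2 = 0 := by
      by_contra hc
      have : (1 : ℝ) ≤ |((k1 - k2 : ℤ) : ℝ)| := by
        rw [← Int.cast_abs]; exact_mod_cast Int.one_le_abs hc
      rw [abs_mul, abs_mul, abs_of_pos (show (0:ℝ) < 2 by norm_num), abs_of_pos hN] at e2
      nlinarith
    rw [hz] at e2
    simp only [Int.cast_zero, mul_zero, zero_mul, abs_zero] at e2
    rw [e2] at hk3
    have e3 : 2 * r 1 - 2 * k3 * N = 0 := abs_eq_zero.mp hk3.symm
    have e4 : r 1 = k3 * N := by linarith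
    have e5 : (0 : ℝ) < k3 := by
      by_contra hc; push Not at hc; nlinarith
    have e6 : (k3 : ℝ) < 1 := by
      by_contra hc; push Not at hc; nlinarith
    have e7 : 0 < k3 := by exact_mod_cast e5
    have e8 : k3 < 1 := by exact_mod_cast e6
    omega
  · refine ⟨k1, ?_⟩
    rw [h] at hk1; linarith

end Fermat.Agent.H08
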