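import Mathlib
import Fermat.Agent.H08.FormalSubgroup
import Fermat.Agent.H08.RankOne
import Fermat.Agent.H08.Tent

/-!
# Valuations of `x`-coordinates of `p`-torsion points with singular reduction

We work with the abstract relations satisfied by the `x`-coordinate on `y² = x³ + a x² + b x`.
-/

set_option autoImplicit false

namespace Fermat.Agent.H08

/-- The relations satisfied by the `x`-coordinate `t` on a curve `y² = x³ + a x² + b x`. -/
structure KummerSystem {G F : Type*} [AddCommGroup G] [Field F] (t : G → F) (a b : F) : Prop where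
  eq_iff : ∀ P Q : G, P ≠ 0 → Q ≠ 0 → (t P = t Q ↔ P = Q ∨ P = -Q)
  sum : ∀ P Q : G, P ≠ 0 → Q ≠ 0 → t P ≠ t Q →
    (t (P + Q) + t (P - Q)) * (t P - t Q) ^ 2
      = 2 * (t P + t Q) * (b + t P * t Q) + 4 * a * (t P * t Q)
  prod : ∀ P Q : G, P ≠ 0 → Q ≠ 0 → t P ≠ t Q →
    (t (P + Q) * t (P - Q)) * (t P - t Q) ^ 2 = (t P * t Q - b) ^ 2
  double : ∀ P : G, P ≠ 0 → P + P ≠ 0 →
    t (P + P) * (4 * (t P ^ 3 + a * t P ^ 2 + b * t P)) = (t P ^ 2 - b) ^ 2

section

variable {G F : Type*} [AddCommGroup G] [Field F] {Γ₀ : Type*} [LinearOrderedCommGroupWithZero Γ₀]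
  {t : G → F} {a b : F} {v : Valuation F Γ₀} {p : ℕ}

/-- The standing hypotheses: multiplicative reduction, and integrality of torsion points. -/
structure KHyp (t : G → F) (a b : F) (v : Valuation F Γ₀) (p : ℕ) : Prop where
  K : KummerSystem t a b
  hp : p.Prime
  hp5 : 5 ≤ p
  v2 : v (2 : F) = 1
  va : v a = 1
  vb : v b < 1
  b0 : b ≠ 0
  int : ∀ P : G, P ≠ 0 → p • P = 0 → v (t P) ≤ 1

namespace KHyp

lemma nsmul_ne_zero (H : KHyp t a b v p) {P : G} (hP : P ≠ 0) (hpP : p • P = 0) {m : ℕ}
    (hm : ¬ p ∣ m) : m • P ≠ 0 := by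
  intro h
  have h1 : addOrderOf P ∣ p := addOrderOf_dvd_of_nsmul_eq_zero hpP
  have h2 : addOrderOf P ∣ m := addOrderOf_dvd_of_nsmul_eq_zero h
  rcases (Nat.dvd_prime H.hp).mp h1 with h3 | h3
  · exact hP (AddMonoid.addOrderOf_eq_one_iff.mp h3)
  · exact hm (h3 ▸ h2)

lemma nsmul_ne_zero' (H : KHyp t a b v p) {P : G} (hP : P ≠ 0) (hpP : p • P = 0) {m : ℕ}
    (hm1 : 1 ≤ m) (hm : m ≤ p - 1) : m • P ≠ 0 :=
  H.nsmul_ne_zero hP hpP (fun h => by have := Nat.le_of_dvd (by omega) h; have := H.hp5; omega)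

lemma torsion_nsmul {P : G} (hpP : p • P = 0) (m : ℕ) : p • (m • P) = 0 := by
  rw [← mul_smul, mul_comm, mul_smul, hpP, smul_zero]

lemma t_ne (H : KHyp t a b v p) {P : G} (hP : P ≠ 0) (hpP : p • P = 0) {m : ℕ}
    (hm1 : 2 ≤ m) (hm : m ≤ p - 2) : t (m • P) ≠ t P := by
  have hp5 := H.hp5
  intro h
  rcases (H.K.eq_iff _ _ (H.nsmul_ne_zero' hP hpP (by omega) (by omega)) hP).mp h with h1 | h1
  · have : (m - 1) • P = 0 := by
      have e : m = (m - 1) + 1 := by omega
      rw [e, succ_nsmul] at h1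
      simpa using h1
    exact H.nsmul_ne_zero' hP hpP (by omega) (by omega) this
  · have : (m + 1) • P = 0 := by
      rw [succ_nsmul, h1, neg_add_cancel]
    exact H.nsmul_ne_zero' hP hpP (by omega) (by omega) this

lemma v4 (H : KHyp t a b v p) : v (4 : F) = 1 := by
  have : (4 : F) = 2 * 2 := by norm_num
  rw [this, map_mul, H.v2, one_mul]

/-- Step 1: points with nonsingular reduction. -/
lemma val_eq_one_nsmul (H : KHyp t a b v p) {P : G} (hP : P ≠ 0) (hpP : p • P = 0)
    (h1 : v (t P) = 1) : ∀ m, 1 ≤ m → m ≤ p - 1 → v (t (m • P)) = 1 := by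
  have hp5 := H.hp5
  have key : ∀ m, 1 ≤ m → m + 1 ≤ p - 1 → v (t (m • P)) = 1 ∧ v (t ((m + 1) • P)) = 1 := by
    intro m hm
    induction m, hm using Nat.le_induction with
    | base =>
      intro _
      rw [one_nsmul]
      refine ⟨h1, ?_⟩
      have h2P : P + P ≠ 0 := by
        rw [← two_nsmul]; exact H.nsmul_ne_zero' hP hpP (by omega) (by omega)
      have hd := H.K.double P hP h2P
      have hR : v ((t P ^ 2 - b) ^ 2) = 1 := by
        have : v (t P ^ 2) = 1 := by rw [map_pow, h1, one_pow]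
        rw [map_pow, v.map_sub_eq_of_lt_left (by rw [this]; exact H.vb), this, one_pow]
      have hL : v (4 * (t P ^ 3 + a * t P ^ 2 + b * t P)) ≤ 1 :=
        v_mul_le_one H.v4.le (v_add_le_one (v_add_le_one (v_pow_le_one h1.le 3)
          (v_mul_le_one H.va.le (v_pow_le_one h1.le 2))) (v_mul_le_one H.vb.le h1.le))
      have hi : v (t (P + P)) ≤ 1 := H.int _ h2P (by rw [← two_nsmul]; exact torsion_nsmul hpP 2)
      show v (t ((1 + 1) • P)) = 1
      rw [show (1 + 1 : ℕ) = 2 from rfl, two_nsmul]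
      by_contra hc
      have hlt : v (t (P + P)) < 1 := lt_of_le_of_ne hi hc
      have := v_mul_lt_one_left hlt hL
      rw [hd, hR] at this
      exact lt_irrefl _ this
    | succ m hm ih =>
      intro hm2
      obtain ⟨i1, i2⟩ := ih (by omega)
      refine ⟨i2, ?_⟩
      have hne := H.t_ne hP hpP (m := m + 1) (by omega) (by omega)
      have hmP := H.nsmul_ne_zero' hP hpP (m := m + 1) (by omega) (by omega)
      have hpr := H.K.prod _ _ hmP hP hne
      rw [← succ_nsmul, show (m + 1) • P - P = m • P by rw [succ_nsmul, add_sub_cancel_right]]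
        at hpr
      have hR : v ((t ((m + 1) • P) * t P - b) ^ 2) = 1 := by
        have : v (t ((m + 1) • P) * t P) = 1 := by rw [map_mul, i2, h1, one_mul]
        rw [map_pow, v.map_sub_eq_of_lt_left (by rw [this]; exact H.vb), this, one_pow]
      have hi : v (t ((m + 1 + 1) • P)) ≤ 1 :=
        H.int _ (H.nsmul_ne_zero' hP hpP (by omega) (by omega)) (torsion_nsmul hpP _)
      by_contra hc
      have hlt : v (t ((m + 1 + 1) • P)) < 1 := lt_of_le_of_ne hi hc
      have := v_mul_lt_one_left (v_mul_lt_one_left hlt i1.le)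
        (v_pow_le_one (v_sub_le_one i2.le h1.le) 2)
      rw [hpr, hR] at this
      exact lt_irrefl _ this
  intro m hm1 hm2
  by_cases h : m + 1 ≤ p - 1
  · exact (key m hm1 h).1
  · have := (key (m - 1) (by omega) (by omega)).2
    rwa [show m - 1 + 1 = m by omega] at this

/-- Step 2: `v b < v (t P)`. -/
lemma val_b_lt (H : KHyp t a b v p) {P : G} (hP : P ≠ 0) (hpP : p • P = 0) :
    v b < v (t P) := by
  have hp5 := H.hp5
  by_contra hc
  push Not at hc
  have h2P : P + P ≠ 0 := by
    rw [← two_nsmul]; exact H.nsmul_ne_zero' hP hpP (by omega) (by omega)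
  have hd := H.K.double P hP h2P
  have hb0 : v b ≠ 0 := (Valuation.ne_zero_iff v).mpr H.b0
  have hi : v (t (P + P)) ≤ 1 := H.int _ h2P (by rw [← two_nsmul]; exact torsion_nsmul hpP 2)
  have htlt : v (t P) < 1 := lt_of_le_of_lt hc H.vb
  -- the right hand side
  have hR : v ((t P ^ 2 - b) ^ 2) = v b ^ 2 := by
    rw [map_pow, v.map_sub_eq_of_lt_right]
    rw [map_pow, pow_two]
    calc v (t P) * v (t P) ≤ v (t P) * v b := mul_le_mul_right hc _
      _ < 1 * v b := by
        exact mul_lt_mul_of_pos_right htlt (zero_lt_iff.mpr hb0)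
      _ = v b := one_mul _
  have hin : v (t P ^ 2 + a * t P + b) ≤ v b := by
    refine v.map_add_le (v.map_add_le ?_ ?_) le_rfl
    · rw [map_pow, pow_two]
      calc v (t P) * v (t P) ≤ v b * 1 := mul_le_mul' hc htlt.le
        _ = v b := mul_one _
    · rw [map_mul, H.va, one_mul]; exact hc
  have hone : v (t (P + P)) = 1 := by
    by_contra hne
    have hlt : v (t (P + P)) < 1 := lt_of_le_of_ne hi hne
    have e : t (P + P) * (4 * (t P ^ 3 + a * t P ^ 2 + b * t P))
      = t (P + P) * (4 * (t P * (t P ^ 2 + a * t P + b))) := by ring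
    rw [e] at hd
    have hv := congrArg v hd
    rw [hR, map_mul, map_mul, H.v4, one_mul, map_mul] at hv
    have : v (t (P + P)) * (v (t P) * v (t P ^ 2 + a * t P + b)) < v b ^ 2 := by
      calc v (t (P + P)) * (v (t P) * v (t P ^ 2 + a * t P + b))
          ≤ v (t (P + P)) * (v b * v b) := mul_le_mul_right (mul_le_mul' hc hin) _
        _ < 1 * (v b * v b) :=
          mul_lt_mul_of_pos_right hlt (zero_lt_iff.mpr (mul_ne_zero hb0 hb0))
        _ = v b ^ 2 := by rw [one_mul, pow_two]
    rw [hv] at this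
    exact lt_irrefl _ this
  -- `P` is a multiple of `2P`
  obtain ⟨k, hk⟩ := H.hp.odd_of_ne_two (by omega)
  have hk1 : (k + 1) • (P + P) = P := by
    have : (k + 1) • (P + P) = p • P + P := by
      rw [← two_nsmul, ← mul_smul, hk, ← succ_nsmul]; congr 1; ring
    rw [this, hpP, zero_add]
  have := H.val_eq_one_nsmul h2P (by rw [← two_nsmul]; exact torsion_nsmul hpP 2) hone (k + 1)
    (by omega) (by omega)
  rw [hk1] at this
  rw [this] at htlt
  exact lt_irrefl _ htlt

lemma t_ne_zero (H : KHyp t a b v p) {P : G} (hP : P ≠ 0) (hpP : p • P = 0) : t P ≠ 0 := by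
  intro h
  have := H.val_b_lt hP hpP
  rw [h, _root_.map_zero] at this
  exact absurd this (by simp)

/-- The right-hand side of the sum formula. -/
lemma val_sum_rhs (H : KHyp t a b v p) {x y : F} (hx : v b < v x) (hx1 : v x < 1)
    (hy : v b < v y) (hy1 : v y < 1) :
    v (2 * (x + y) * (b + x * y) + 4 * a * (x * y)) = v x * v y := by
  have h1 : v (4 * a * (x * y)) = v x * v y := by
    rw [map_mul, map_mul, H.v4, H.va, one_mul, one_mul, map_mul]
  have hx0 : v x ≠ 0 := ne_of_gt (lt_of_le_of_lt zero_le hx)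
  have hy0 : v y ≠ 0 := ne_of_gt (lt_of_le_of_lt zero_le hy)
  rw [v.map_add_eq_of_lt_right, h1]
  rw [h1, mul_assoc, map_mul, H.v2, one_mul, map_mul]
  have hb0 : v b ≠ 0 := (Valuation.ne_zero_iff v).mpr H.b0
  have hxy : v (x + y) ≤ max (v x) (v y) := v.map_add x y
  have hbx : v (b + x * y) ≤ max (v b) (v (x * y)) := v.map_add b (x * y)
  have hmax1 : max (v x) (v y) < 1 := max_lt hx1 hy1
  have hmax0 : 0 < max (v x) (v y) := lt_of_lt_of_le (zero_lt_iff.mpr hx0) (le_max_left _ _)
  rcases le_total (v b) (v (x * y)) with h | h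
  · rw [max_eq_right h] at hbx
    calc v (x + y) * v (b + x * y) ≤ max (v x) (v y) * v (x * y) := mul_le_mul' hxy hbx
      _ < 1 * v (x * y) := by
        refine mul_lt_mul_of_pos_right hmax1 ?_
        rw [map_mul]; exact zero_lt_iff.mpr (mul_ne_zero hx0 hy0)
      _ = v x * v y := by rw [one_mul, map_mul]
  · rw [max_eq_left h] at hbx
    calc v (x + y) * v (b + x * y) ≤ max (v x) (v y) * v b := mul_le_mul' hxy hbx
      _ < v x * v y := by
        rcases le_total (v x) (v y) with h' | h'
        · rw [max_eq_right h', mul_comm]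
          exact mul_lt_mul_of_pos_right hx (zero_lt_iff.mpr hy0)
        · rw [max_eq_left h']
          exact mul_lt_mul_of_pos_left hy (zero_lt_iff.mpr hx0)

lemma val_sub_of_val_ne {x y : F} (h : v x ≠ v y) : v (x - y) = max (v x) (v y) := by
  rw [sub_eq_add_neg, v.map_add_of_distinct_val (by rwa [Valuation.map_neg]), Valuation.map_neg]

lemma w_eq_min {w : F → ℝ} (hw : IsLogVal v w) {x y z : F} (hx : x ≠ 0) (hy : y ≠ 0)
    (hz : z ≠ 0) (h : v z = max (v x) (v y)) : w z = min (w x) (w y) := by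
  rcases le_total (v x) (v y) with h1 | h1
  · rw [max_eq_right h1] at h
    rw [min_eq_right ((hw.le_iff hx hy).mp h1)]
    exact (hw.eq_iff hz hy).mp h
  · rw [max_eq_left h1] at h
    rw [min_eq_left ((hw.le_iff hy hx).mp h1)]
    exact (hw.eq_iff hz hx).mp h

/-- Step 3a: the recursion. -/
lemma recursion (H : KHyp t a b v p) {w : F → ℝ} (hw : IsLogVal v w) {P : G} (hP : P ≠ 0)
    (hpP : p • P = 0) (h1 : v (t P) < 1) {m : ℕ} (hm1 : 1 ≤ m) (hm : m + 2 ≤ p - 1) :
    w (t ((m + 2) • P)) + w (t (m • P))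
      = |w (t ((m + 1) • P)) - w (t P)|
        + min (w (t ((m + 1) • P)) + w (t P)) (2 * w b - (w (t ((m + 1) • P)) + w (t P))) := by
  have hp5 := H.hp5
  have hne := H.t_ne hP hpP (m := m + 1) (by omega) (by omega)
  have hQ := H.nsmul_ne_zero' hP hpP (m := m + 1) (by omega) (by omega)
  have hQm := H.nsmul_ne_zero' hP hpP (m := m) (by omega) (by omega)
  have hQ2 := H.nsmul_ne_zero' hP hpP (m := m + 2) (by omega) (by omega)
  have hpr := H.K.prod _ _ hQ hP hne
  have hsu := H.K.sum _ _ hQ hP hne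
  rw [← succ_nsmul, show (m + 1) • P - P = m • P by rw [succ_nsmul, add_sub_cancel_right],
    show m + 1 + 1 = m + 2 from rfl] at hpr hsu
  have hbx := H.val_b_lt hP hpP
  have hby := H.val_b_lt hQ (torsion_nsmul hpP _)
  have hbX := H.val_b_lt hQ2 (torsion_nsmul hpP _)
  have hbY := H.val_b_lt hQm (torsion_nsmul hpP _)
  have hX0 := H.t_ne_zero hQ2 (torsion_nsmul hpP _)
  have hY0 := H.t_ne_zero hQm (torsion_nsmul hpP _)
  have hx0 := H.t_ne_zero hP hpP
  have hy0 := H.t_ne_zero hQ (torsion_nsmul hpP _)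
  have hX1 := H.int _ hQ2 (torsion_nsmul hpP _)
  have hY1 := H.int _ hQm (torsion_nsmul hpP _)
  have hy1 := H.int _ hQ (torsion_nsmul hpP _)
  set x := t P with hx
  set y := t ((m + 1) • P) with hy
  set X := t ((m + 2) • P) with hX
  set Y := t (m • P) with hY
  have hvb0 : v b ≠ 0 := (Valuation.ne_zero_iff v).mpr H.b0
  have hvx0 : v x ≠ 0 := (Valuation.ne_zero_iff v).mpr hx0
  have hvy0 : v y ≠ 0 := (Valuation.ne_zero_iff v).mpr hy0
  have hd0 : y - x ≠ 0 := sub_ne_zero.mpr hne
  -- (i)
  have hi : v (y - x) = max (v y) (v x) := by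
    by_cases hvv : v y = v x
    · rw [hvv, max_self]
      apply le_antisymm
      · have := v.map_sub y x
        rwa [hvv, max_self] at this
      · by_contra hc
        push Not at hc
        have hrhs := H.val_sum_rhs (x := y) (y := x) hby (by rw [hvv]; exact h1) hbx h1
        rw [← hsu, map_mul, map_pow, hvv] at hrhs
        have h3 : v (X + Y) ≤ 1 := v_add_le_one hX1 hY1
        have h4 : v (X + Y) * v (y - x) ^ 2 < v x * v x := by
          calc v (X + Y) * v (y - x) ^ 2 ≤ 1 * v (y - x) ^ 2 := mul_le_mul_left h3 _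
            _ = v (y - x) * v (y - x) := by rw [one_mul, pow_two]
            _ ≤ v x * v (y - x) := mul_le_mul_left hc.le _
            _ < v x * v x := mul_lt_mul_of_pos_left hc (zero_lt_iff.mpr hvx0)
        rw [hrhs] at h4
        exact lt_irrefl _ h4
    · exact val_sub_of_val_ne hvv
  -- (ii)
  have hii : v (y * x - b) = max (v (y * x)) (v b) := by
    by_cases hvv : v (y * x) = v b
    · rw [hvv, max_self]
      apply le_antisymm
      · have := v.map_sub (y * x) b
        rwa [hvv, max_self] at this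
      · by_contra hc
        push Not at hc
        have hvyx : v y * v x = v b := by rw [← map_mul]; exact hvv
        have hy1' : v y < 1 := by
          apply lt_of_le_of_ne hy1
          intro h; rw [h, one_mul] at hvyx; rw [hvyx] at hbx; exact lt_irrefl _ hbx
        have hrhs := H.val_sum_rhs (x := y) (y := x) hby hy1' hbx h1
        rw [← hsu, hvyx, map_mul, map_pow] at hrhs
        have hprv := congrArg v hpr
        rw [map_mul, map_mul, map_pow, map_pow] at hprv
        -- both orders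
        have key : ∀ X Y : F, v b < v X → v (X + Y) * v (y - x) ^ 2 = v b →
            v X * v Y * v (y - x) ^ 2 = v (y * x - b) ^ 2 → v X ≤ v Y → False := by
          intro X Y hbX e1 e2 hXY
          have e3 : v (X + Y) ≤ v Y := v.map_add_le hXY le_rfl
          have e4 : v X * v b < v b * v b := by
            calc v X * v b = v X * (v (X + Y) * v (y - x) ^ 2) := by rw [e1]
              _ ≤ v X * (v Y * v (y - x) ^ 2) := mul_le_mul_right (mul_le_mul_left e3 _) _
              _ = v (y * x - b) ^ 2 := by rw [← mul_assoc, e2]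
              _ = v (y * x - b) * v (y * x - b) := pow_two _
              _ ≤ v b * v (y * x - b) := mul_le_mul_left hc.le _
              _ < v b * v b := mul_lt_mul_of_pos_left hc (zero_lt_iff.mpr hvb0)
          have e5 : v b * v b < v X * v b := mul_lt_mul_of_pos_right hbX (zero_lt_iff.mpr hvb0)
          exact lt_irrefl _ (e4.trans e5)
        rcases le_total (v X) (v Y) with h | h
        · exact key X Y hbX hrhs hprv h
        · exact key Y X hbY (by rw [add_comm]; exact hrhs)
            (by rw [mul_comm (v Y) (v X)]; exact hprv) h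
    · exact val_sub_of_val_ne hvv
  have hyxb0 : y * x - b ≠ 0 := by
    rw [← Valuation.ne_zero_iff v, hii]
    exact ne_of_gt (lt_of_lt_of_le (zero_lt_iff.mpr hvb0) (le_max_right _ _))
  have hwi := w_eq_min hw hy0 hx0 hd0 hi
  have hwii := w_eq_min hw (mul_ne_zero hy0 hx0) H.b0 hyxb0 hii
  rw [hw.map_mul y x hy0 hx0] at hwii
  have hwpr := congrArg w hpr
  rw [hw.map_mul _ _ (mul_ne_zero hX0 hY0) (pow_ne_zero 2 hd0), hw.map_mul _ _ hX0 hY0,
    hw.pow hd0, hw.pow hyxb0, hwi, hwii] at hwpr
  push_cast at hwpr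
  have hfin : w X + w Y = 2 * min (w y + w x) (w b) - 2 * min (w y) (w x) := by linarith
  rw [hfin]
  rcases le_total (w y) (w x) with h | h
  · rw [min_eq_left h, abs_of_nonpos (by linarith)]
    rcases le_total (w y + w x) (w b) with h' | h'
    · rw [min_eq_left h', min_eq_left (by linarith)]; ring
    · rw [min_eq_right h', min_eq_right (by linarith)]; ring
  · rw [min_eq_right h, abs_of_nonneg (by linarith)]
    rcases le_total (w y + w x) (w b) with h' | h'
    · rw [min_eq_left h', min_eq_left (by linarith)]; ring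
    · rw [min_eq_right h', min_eq_right (by linarith)]; ring

/-- Step 3b: the start of the recursion. -/
lemma recursion_start (H : KHyp t a b v p) {w : F → ℝ} (hw : IsLogVal v w) {P : G} (hP : P ≠ 0)
    (hpP : p • P = 0) (h1 : v (t P) < 1) :
    w (t (2 • P)) = min (w (t P) + w (t P)) (2 * w b - (w (t P) + w (t P))) := by
  have hp5 := H.hp5
  have hQ2 := H.nsmul_ne_zero' hP hpP (m := 2) (by omega) (by omega)
  have h2P : P + P ≠ 0 := by rw [← two_nsmul]; exact hQ2
  have hd := H.K.double P hP h2P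
  rw [← two_nsmul] at hd
  have hbx := H.val_b_lt hP hpP
  have hbX := H.val_b_lt hQ2 (torsion_nsmul hpP _)
  have hX0 := H.t_ne_zero hQ2 (torsion_nsmul hpP _)
  have hx0 := H.t_ne_zero hP hpP
  set x := t P with hx
  set X := t (2 • P) with hX
  have hvb0 : v b ≠ 0 := (Valuation.ne_zero_iff v).mpr H.b0
  have hvx0 : v x ≠ 0 := (Valuation.ne_zero_iff v).mpr hx0
  have e0 : 4 * (x ^ 3 + a * x ^ 2 + b * x) = 4 * (x * (a * x + (x ^ 2 + b))) := by ring
  have hin : v (a * x + (x ^ 2 + b)) = v x := by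
    have h2 : v (a * x) = v x := by rw [map_mul, H.va, one_mul]
    rw [v.map_add_eq_of_lt_left, h2]
    rw [h2]
    refine v.map_add_lt ?_ hbx
    rw [map_pow, pow_two]
    calc v x * v x < 1 * v x := mul_lt_mul_of_pos_right h1 (zero_lt_iff.mpr hvx0)
      _ = v x := one_mul _
  have hin0 : a * x + (x ^ 2 + b) ≠ 0 := by
    rw [← Valuation.ne_zero_iff v, hin]; exact hvx0
  have h4 : (4 : F) ≠ 0 := by
    rw [← Valuation.ne_zero_iff v, H.v4]; exact one_ne_zero
  have hii : v (x ^ 2 - b) = max (v (x ^ 2)) (v b) := by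
    by_cases hvv : v (x ^ 2) = v b
    · rw [hvv, max_self]
      apply le_antisymm
      · have := v.map_sub (x ^ 2) b
        rwa [hvv, max_self] at this
      · by_contra hc
        push Not at hc
        have hv := congrArg v hd
        rw [e0, map_mul, map_mul, H.v4, one_mul, map_mul, hin, map_pow, ← pow_two, ← map_pow,
          hvv] at hv
        have e4 : v X * v b < v b * v b := by
          rw [hv, pow_two]
          calc v (x ^ 2 - b) * v (x ^ 2 - b) ≤ v b * v (x ^ 2 - b) := mul_le_mul_left hc.le _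
            _ < v b * v b := mul_lt_mul_of_pos_left hc (zero_lt_iff.mpr hvb0)
        have e5 : v b * v b < v X * v b := mul_lt_mul_of_pos_right hbX (zero_lt_iff.mpr hvb0)
        exact lt_irrefl _ (e4.trans e5)
    · exact val_sub_of_val_ne hvv
  have hxb0 : x ^ 2 - b ≠ 0 := by
    rw [← Valuation.ne_zero_iff v, hii]
    exact ne_of_gt (lt_of_lt_of_le (zero_lt_iff.mpr hvb0) (le_max_right _ _))
  have hwii := w_eq_min hw (pow_ne_zero 2 hx0) H.b0 hxb0 hii
  rw [hw.pow hx0] at hwii
  have hw4 : w 4 = 0 := (hw.eq_zero_iff h4).mp H.v4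
  have hwin : w (a * x + (x ^ 2 + b)) = w x := (hw.eq_iff hin0 hx0).mp hin
  have hwd := congrArg w hd
  rw [e0, hw.map_mul _ _ hX0 (mul_ne_zero h4 (mul_ne_zero hx0 hin0)),
    hw.map_mul _ _ h4 (mul_ne_zero hx0 hin0), hw.map_mul _ _ hx0 hin0, hw4, hwin,
    hw.pow hxb0, hwii] at hwd
  push_cast at hwd
  rcases le_total (w x + w x) (w b) with h' | h'
  · rw [min_eq_left (by linarith)] at hwd ⊢
    linarith
  · rw [min_eq_right (by linarith)] at hwd ⊢
    linarith

/-- The valuation of the `x`-coordinate of a `p`-torsion point with singular reduction. -/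
theorem val_singular (H : KHyp t a b v p) {w : F → ℝ} (hw : IsLogVal v w) {P : G} (hP : P ≠ 0)
    (hpP : p • P = 0) (h1 : v (t P) < 1) :
    ∃ k : ℤ, p * w (t P) = 2 * k * w b := by
  have hp5 := H.hp5
  have hx0 := H.t_ne_zero hP hpP
  have hbx := H.val_b_lt hP hpP
  set r : ℕ → ℝ := fun m => if m = 0 then 0 else w (t (m • P)) with hr
  have hr0 : r 0 = 0 := by simp [hr]
  have hrm : ∀ m, 1 ≤ m → r m = w (t (m • P)) := by
    intro m hm; simp [hr, show m ≠ 0 by omega]
  have hr1 : r 1 = w (t P) := by rw [hrm 1 le_rfl, one_nsmul]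
  have hN : 0 < w b := (hw.pos_iff H.b0).mp H.vb
  have hneg : ∀ Q : G, Q ≠ 0 → t (-Q) = t Q := by
    intro Q hQ
    exact (H.K.eq_iff _ _ (neg_ne_zero.mpr hQ) hQ).mpr (Or.inr rfl)
  have := tent_final hN hp5 (r := r) hr0 ?_ ?_ ?_ ?_ ?_ ?_ ?_
  · rwa [hr1] at this
  · intro m hm
    by_cases hm0 : m = 0
    · rw [hm0, hr0]
    · rw [hrm m (by omega)]
      have hQ := H.nsmul_ne_zero' hP hpP (m := m) (by omega) hm
      exact (hw.nonneg_iff (H.t_ne_zero hQ (torsion_nsmul hpP _))).mp
        (H.int _ hQ (torsion_nsmul hpP _))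
  · intro m hm
    by_cases hm0 : m = 0
    · rw [hm0, hr0]; exact hN.le
    · rw [hrm m (by omega)]
      have hQ := H.nsmul_ne_zero' hP hpP (m := m) (by omega) hm
      exact ((hw.lt_iff _ _ H.b0 (H.t_ne_zero hQ (torsion_nsmul hpP _))).mp
        (H.val_b_lt hQ (torsion_nsmul hpP _))).le
  · intro m hm
    by_cases hm0 : m = 0
    · subst hm0
      rw [hr0, hrm 2 (by omega), H.recursion_start hw hP hpP h1, hr1]
      simp
    · rw [hrm (m + 2) (by omega), hrm m (by omega), hrm (m + 1) (by omega), hr1]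
      exact H.recursion hw hP hpP h1 (by omega) hm
  · rw [hr1]; exact (hw.pos_iff hx0).mp h1
  · rw [hr1]; exact (hw.lt_iff _ _ H.b0 hx0).mp hbx
  · rw [hrm _ (by omega), hr1]
    have : (p - 1) • P = -P := by
      have e : (p - 1) • P + P = 0 := by rw [← succ_nsmul, show p - 1 + 1 = p by omega, hpP]
      exact eq_neg_of_add_eq_zero_left e
    rw [this, hneg P hP]
  · rw [hrm _ (by omega), hrm 2 (by omega)]
    have : (p - 2) • P = -(2 • P) := by
      have e : (p - 2) • P + 2 • P = 0 := by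
        rw [← add_nsmul, show p - 2 + 2 = p by omega, hpP]
      exact eq_neg_of_add_eq_zero_left e
    rw [this, hneg _ (H.nsmul_ne_zero' hP hpP (by omega) (by omega))]

end KHyp

end

end Fermat.Agent.H08
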