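import Mathlib
import Fermat.Agent.H08.Kummer
import Fermat.Agent.H08.Congruence
import Fermat.Agent.H08.KummerSystem

/-!
# The Kummer system attached to a rational point of order two
-/

set_option autoImplicit false

namespace Fermat.Agent.H08

open WeierstrassCurve WeierstrassCurve.Affine WeierstrassCurve.Affine.Point

universe u w

variable {F : Type u} [Field F] [DecidableEq F] {W : WeierstrassCurve.Affine F}

/-- `t = 4x - e` satisfies the relations of `y² = t³ + a t² + b t` if `e/4` is a root of the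
two-division polynomial. -/
theorem kummerSystem_of_root (h2 : (2 : F) ≠ 0) {e : F}
    (he : e ^ 3 + W.b₂ * e ^ 2 + 8 * W.b₄ * e + 16 * W.b₆ = 0) :
    KummerSystem (fun P : W.Point => 4 * px P - e) (3 * e + W.b₂)
      (3 * e ^ 2 + 2 * W.b₂ * e + 8 * W.b₄) := by
  have h4 : (4 : F) ≠ 0 := by
    have : (4 : F) = 2 * 2 := by norm_num
    rw [this]; exact mul_ne_zero h2 h2
  have hbr := W.b_relation
  have ht : ∀ P Q : W.Point, 4 * px P - e ≠ 4 * px Q - e → px P ≠ px Q := by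
    intro P Q h h'; rw [h'] at h; exact h rfl
  refine ⟨?_, ?_, ?_, ?_⟩
  · intro P Q hP hQ
    rw [← px_eq_iff hP hQ]
    constructor
    · intro h
      exact mul_left_cancel₀ h4 (sub_left_injective h)
    · intro h; simp only [h]
  · intro P Q hP hQ hPQ
    have hs := px_add_sub_sum hP hQ (ht P Q hPQ)
    linear_combination 64 * hs + 4 * he
  · intro P Q hP hQ hPQ
    have hs := px_add_sub_sum hP hQ (ht P Q hPQ)
    have hp := px_add_sub_prod hP hQ (ht P Q hPQ)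
    linear_combination 256 * hp - 64 * e * hs
      - (16 * (px P + px Q) + 4 * (e + W.b₂)) * he - 64 * hbr
  · intro P hP h2P
    have hd := px_double hP h2P
    linear_combination 256 * hd - 4 * (4 * px (P + P) - e) * he
      - (32 * px P + 4 * (e + W.b₂)) * he - 64 * hbr

omit [DecidableEq F] in
/-- `256 Φ₂ - 64 e ψ₂² = (t² - b)²`. -/
lemma sq_eq_of_root {e : F} (he : e ^ 3 + W.b₂ * e ^ 2 + 8 * W.b₄ * e + 16 * W.b₆ = 0) (x : F) :
    256 * (x ^ 4 - W.b₄ * x ^ 2 - 2 * W.b₆ * x - W.b₈)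
      - 64 * e * (4 * x ^ 3 + W.b₂ * x ^ 2 + 2 * W.b₄ * x + W.b₆)
      = ((4 * x - e) ^ 2 - (3 * e ^ 2 + 2 * W.b₂ * e + 8 * W.b₄)) ^ 2 := by
  have hbr := W.b_relation
  linear_combination -(32 * x + 4 * (e + W.b₂)) * he - 64 * hbr

omit [DecidableEq F] in
lemma sixteen_psi2_sq {P : W.Point} (hP : P ≠ 0) {e : F}
    (he : e ^ 3 + W.b₂ * e ^ 2 + 8 * W.b₄ * e + 16 * W.b₆ = 0) :
    (4 * psi2 P) ^ 2 = (4 * px P - e) ^ 3 + (3 * e + W.b₂) * (4 * px P - e) ^ 2
      + (3 * e ^ 2 + 2 * W.b₂ * e + 8 * W.b₄) * (4 * px P - e) := by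
  have h := psi2_sq hP
  linear_combination 16 * h + he

variable {Γ₀ : Type w} [LinearOrderedCommGroupWithZero Γ₀] {v : Valuation F Γ₀}

omit [DecidableEq F] in
/-- A point with singular reduction satisfies `t² ≡ b` for every root `e`. -/
lemma val_lt_of_not_nonsingularRed (hW : IsIntegralFor v W) {P : W.Point} (hP : P ≠ 0)
    (hPx : v (px P) ≤ 1) (hns : ¬ NonsingularRed v P) {e : F} (he1 : v e ≤ 1)
    (he : e ^ 3 + W.b₂ * e ^ 2 + 8 * W.b₄ * e + 16 * W.b₆ = 0) :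
    v ((4 * px P - e) ^ 2 - (3 * e ^ 2 + 2 * W.b₂ * e + 8 * W.b₄)) < 1 := by
  rw [NonsingularRed, not_or] at hns
  have hPy := val_py_le_one hW hPx
  have hψ1 : v (psi2 P) ≤ 1 :=
    v_add_le_one (v_add_le_one (v_mul_le_one (v_ofNat_le_one v 2) hPy)
      (v_mul_le_one hW.h₁ hPx)) hW.h₃
  have hφ1 : v (phiX P) ≤ 1 :=
    v_sub_le_one (v_add_le_one (v_add_le_one
      (v_mul_le_one (v_ofNat_le_one v 3) (v_pow_le_one hPx 2))
      (v_mul_le_one (v_mul_le_one (v_ofNat_le_one v 2) hW.h₂) hPx)) hW.h₄)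
      (v_mul_le_one hW.h₁ hPy)
  have hψ : v (psi2 P) < 1 := lt_of_le_of_ne hψ1 hns.1
  have hφ : v (phiX P) < 1 := lt_of_le_of_ne hφ1 hns.2
  have h1 : v (px P ^ 4 - W.b₄ * px P ^ 2 - 2 * W.b₆ * px P - W.b₈) < 1 := by
    rw [phi2_eq hP]
    refine v_sub_lt_one (v_add_lt_one (v_pow_lt_one hφ two_ne_zero) ?_) ?_
    · exact v_mul_lt_one_right (v_mul_le_one hW.h₁ hφ1) hψ
    · exact v_mul_lt_one_right (v_add_le_one hW.h₂ (v_mul_le_one (v_ofNat_le_one v 2) hPx))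
        (v_pow_lt_one hψ two_ne_zero)
  have h2 : v (4 * px P ^ 3 + W.b₂ * px P ^ 2 + 2 * W.b₄ * px P + W.b₆) < 1 := by
    rw [← psi2_sq hP]; exact v_pow_lt_one hψ two_ne_zero
  have h3 : v (((4 * px P - e) ^ 2 - (3 * e ^ 2 + 2 * W.b₂ * e + 8 * W.b₄)) ^ 2) < 1 := by
    rw [← sq_eq_of_root he]
    exact v_sub_lt_one (v_mul_lt_one_right (v_ofNat_le_one v 256) h1)
      (v_mul_lt_one_right (v_mul_le_one (v_ofNat_le_one v 64) he1) h2)
  by_contra hc
  push Not at hc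
  rw [map_pow] at h3
  exact absurd h3 (not_lt.mpr (one_le_pow_of_one_le' hc 2))

end Fermat.Agent.H08
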