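import Mathlib
import Fermat.Prelude.Def_FLTPrelim_Ramification
import Fermat.Agent.H08.Inertia
import Fermat.Agent.H08.Congruence
import Fermat.Agent.H08.KummerRoot

/-!
# Inertia acts trivially on torsion points

Two cases: nonsingular reduction, and multiplicative reduction with a rational point of order two
reducing to the node and `b` of the form `α ^ p`.
-/

set_option autoImplicit false

namespace Fermat.Agent.H08

open WeierstrassCurve WeierstrassCurve.Affine WeierstrassCurve.Affine.Point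

variable {K L : Type*} [Field K] [Field L] [DecidableEq L] [Algebra K L]
  {E : WeierstrassCurve.Affine K} {A : ValuationSubring L}

lemma px_smul (σ : L ≃ₐ[K] L) (P : (E⁄L).Point) : px (σ • P) = σ (px P) := by
  rcases P with _ | ⟨x, y, h⟩
  · exact (map_zero σ).symm
  · rfl

lemma py_smul (σ : L ≃ₐ[K] L) (P : (E⁄L).Point) : py (σ • P) = σ (py P) := by
  rcases P with _ | ⟨x, y, h⟩
  · exact (map_zero σ).symm
  · rfl

lemma smul_ne_zero' (σ : L ≃ₐ[K] L) {P : (E⁄L).Point} (hP : P ≠ 0) : σ • P ≠ 0 := by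
  obtain ⟨x, y, h, rfl⟩ := exists_eq_some hP
  exact some_ne_zero _

/-- The nonsingular case. -/
theorem inertia_trivial_of_nonsingularRed (hW : IsIntegralFor A.valuation (E⁄L))
    {σ : L ≃ₐ[K] L} (hσ : σ ∈ A.inertiaSubgroupIn K) {P : (E⁄L).Point} {n : ℕ}
    (hn : n • P = 0) (hvn : A.valuation (n : L) = 1)
    (hns : NonsingularRed A.valuation P) : σ • P = P := by
  by_cases hP : P = 0
  · subst hP; exact smul_zero σ
  have hPx : A.valuation (px P) ≤ 1 := val_px_le_one_of_torsion hW hn hvn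
  have hPy : A.valuation (py P) ≤ 1 := val_py_le_one hW hPx
  have h1 : A.valuation (px P - px (σ • P)) < 1 := by
    rw [px_smul, Valuation.map_sub_swap]; exact val_sub_lt_of_mem_inertia hσ hPx
  have h2 : A.valuation (py P - py (σ • P)) < 1 := by
    rw [py_smul, Valuation.map_sub_swap]; exact val_sub_lt_of_mem_inertia hσ hPy
  have h3 := inE1_sub_of_congr hW hP (smul_ne_zero' σ hP) hPx h1 h2 hns
  have h4 : n • (P - σ • P) = 0 := by
    rw [smul_sub, smul_comm, hn, smul_zero, sub_zero]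
  have h5 := h3.eq_zero_of_torsion hW h4 hvn
  exact (sub_eq_zero.mp h5).symm

omit [DecidableEq L] in
/-- If the valuation of `z` is that of an element fixed by `σ` then `σ z / z` is a one-unit. -/
lemma val_apply_sub_lt {σ : L ≃ₐ[K] L} (hσ : σ ∈ A.inertiaSubgroupIn K) {z β : L} (hz : z ≠ 0)
    (hσβ : σ β = β) (h : A.valuation z = A.valuation β) :
    A.valuation (σ z - z) < A.valuation z := by
  have hvz : A.valuation z ≠ 0 := (Valuation.ne_zero_iff _).mpr hz
  have hβ : β ≠ 0 := by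
    rw [← Valuation.ne_zero_iff A.valuation, ← h]; exact hvz
  have hu : A.valuation (z / β) = 1 := by rw [map_div₀, h, div_self (h ▸ hvz)]
  have h1 := val_sub_lt_of_mem_inertia hσ hu.le
  have e1 : σ z - z = β * (σ (z / β) - z / β) := by
    rw [map_div₀, hσβ]; field_simp
  rw [e1, map_mul, h]
  calc A.valuation β * A.valuation (σ (z / β) - z / β) < A.valuation β * 1 :=
        mul_lt_mul_of_pos_left h1 (zero_lt_iff.mpr (h ▸ hvz))
    _ = A.valuation β := mul_one _

omit [DecidableEq L] in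
lemma psi2_neg {P : (E⁄L).Point} (hP : P ≠ 0) : psi2 (-P) = - psi2 P := by
  rw [psi2, psi2, py_neg hP, px_neg]; ring

lemma psi2_smul (σ : L ≃ₐ[K] L) {P : (E⁄L).Point} : psi2 (σ • P) = σ (psi2 P) := by
  have e1 : (E⁄L).a₁ = algebraMap K L E.a₁ := rfl
  have e3 : (E⁄L).a₃ = algebraMap K L E.a₃ := rfl
  rw [psi2, psi2, py_smul, px_smul, map_add, map_add, map_mul, map_mul, e1, e3, σ.commutes,
    σ.commutes, map_ofNat]

/-- The singular case. -/
theorem inertia_trivial_of_singular
    {σ : L ≃ₐ[K] L} (hσ : σ ∈ A.inertiaSubgroupIn K) {w : L → ℝ} (hw : IsLogVal A.valuation w)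
    {e α : L} {p : ℕ}
    (he : e ^ 3 + (E⁄L).b₂ * e ^ 2 + 8 * (E⁄L).b₄ * e + 16 * (E⁄L).b₆ = 0)
    (H : KHyp (fun P : (E⁄L).Point => 4 * px P - e) (3 * e + (E⁄L).b₂)
      (3 * e ^ 2 + 2 * (E⁄L).b₂ * e + 8 * (E⁄L).b₄) A.valuation p)
    (hσe : σ e = e) (hσα : σ α = α)
    (hα : A.valuation (3 * e ^ 2 + 2 * (E⁄L).b₂ * e + 8 * (E⁄L).b₄) = A.valuation (α ^ p))
    {P : (E⁄L).Point} (hP : P ≠ 0) (hpP : p • P = 0)
    (h1 : A.valuation (4 * px P - e) < 1) : σ • P = P := by
  have hp5 := H.hp5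
  have hp0 : (p : ℝ) ≠ 0 := by have := H.hp.pos; positivity
  set v := A.valuation with hv
  set a := 3 * e + (E⁄L).b₂ with ha
  set b := 3 * e ^ 2 + 2 * (E⁄L).b₂ * e + 8 * (E⁄L).b₄ with hb
  have ht0 : 4 * px P - e ≠ 0 := H.t_ne_zero hP hpP
  have hbt : v b < v (4 * px P - e) := H.val_b_lt hP hpP
  have hαp0 : α ^ p ≠ 0 := by
    rw [← Valuation.ne_zero_iff v, ← hα, Valuation.ne_zero_iff]; exact H.b0
  have hα0 : α ≠ 0 := fun h => hαp0 (by rw [h]; exact zero_pow H.hp.ne_zero)
  obtain ⟨k, hk⟩ := H.val_singular hw hP hpP h1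
  have hwb : w b = p * w α := by
    rw [(hw.eq_iff H.b0 hαp0).mp hα, hw.pow hα0]
  have hwt : w (4 * px P - e) = w (α ^ (2 * k)) := by
    rw [hw.zpow hα0]
    apply mul_left_cancel₀ hp0
    have hk' : (p : ℝ) * w (4 * px P - e) = 2 * k * w b := hk
    rw [hk', hwb]; push_cast; ring
  have hvt : v (4 * px P - e) = v (α ^ (2 * k)) :=
    (hw.eq_iff ht0 (zpow_ne_zero _ hα0)).mpr hwt
  have hσβ : σ (α ^ (2 * k)) = α ^ (2 * k) := by rw [map_zpow₀, hσα]
  have htσ : 4 * px (σ • P) - e = σ (4 * px P - e) := by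
    rw [px_smul, map_sub, map_mul, hσe, map_ofNat]
  have hlt := val_apply_sub_lt hσ ht0 hσβ hvt
  have hσP := smul_ne_zero' σ hP
  have hpσP : p • (σ • P) = 0 := by rw [smul_comm, hpP, smul_zero]
  have hvσ : v (4 * px (σ • P) - e) = v (4 * px P - e) := by
    have e1 : 4 * px (σ • P) - e = (4 * px P - e) + (σ (4 * px P - e) - (4 * px P - e)) := by
      rw [htσ]; ring
    rw [e1, Valuation.map_add_eq_of_lt_left _ hlt]
  by_cases hne : 4 * px (σ • P) - e = 4 * px P - e
  · rcases (H.K.eq_iff _ _ hσP hP).mp hne with h | h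
    · exact h
    · exfalso
      -- `σ P = - P`
      have hy := sixteen_psi2_sq hP he
      rw [← ha, ← hb] at hy
      have hvy2 : v ((4 * psi2 P) ^ 2) = v (4 * px P - e) ^ 2 := by
        rw [hy]
        have e1 : (4 * px P - e) ^ 3 + a * (4 * px P - e) ^ 2 + b * (4 * px P - e)
          = (4 * px P - e) * (a * (4 * px P - e) + ((4 * px P - e) ^ 2 + b)) := by ring
        have h2 : v (a * (4 * px P - e)) = v (4 * px P - e) := by
          rw [map_mul, H.va, one_mul]
        have hin : v (a * (4 * px P - e) + ((4 * px P - e) ^ 2 + b)) = v (4 * px P - e) := by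
          rw [v.map_add_eq_of_lt_left, h2]
          rw [h2]
          refine v.map_add_lt ?_ hbt
          rw [map_pow, pow_two]
          calc v (4 * px P - e) * v (4 * px P - e) < 1 * v (4 * px P - e) :=
                mul_lt_mul_of_pos_right h1 (zero_lt_iff.mpr ((Valuation.ne_zero_iff v).mpr ht0))
            _ = v (4 * px P - e) := one_mul _
        rw [e1, map_mul, hin, pow_two]
      have hy0 : 4 * psi2 P ≠ 0 := by
        intro h0
        rw [h0] at hvy2
        have : v (4 * px P - e) ^ 2 ≠ 0 := pow_ne_zero 2 ((Valuation.ne_zero_iff v).mpr ht0)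
        apply this
        rw [← hvy2]; simp
      have hvy : v (4 * psi2 P) = v (4 * px P - e) := by
        rw [map_pow] at hvy2
        exact (pow_left_inj₀ zero_le zero_le two_ne_zero).mp hvy2
      have hlt2 := val_apply_sub_lt hσ hy0 hσβ (hvy.trans hvt)
      have e2 : σ (4 * psi2 P) = - (4 * psi2 P) := by
        rw [map_mul, map_ofNat, ← psi2_smul, h, psi2_neg hP]; ring
      rw [e2] at hlt2
      have e3 : -(4 * psi2 P) - 4 * psi2 P = -(2 * (4 * psi2 P)) := by ring
      rw [e3, Valuation.map_neg, map_mul, H.v2, one_mul] at hlt2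
      exact lt_irrefl _ hlt2
  · exfalso
    have hsum := H.K.sum _ _ hσP hP hne
    have hrhs := H.val_sum_rhs (x := 4 * px (σ • P) - e) (y := 4 * px P - e)
      (by rw [hvσ]; exact hbt) (by rw [hvσ]; exact h1) hbt h1
    have hpne : px (σ • P) ≠ px P := by
      intro h0; rw [h0] at hne; exact hne rfl
    have hadd := add_ne_zero_of_px_ne hpne
    have hsub := sub_ne_zero_of_px_ne hpne
    have i1 : v (4 * px (σ • P + P) - e) ≤ 1 :=
      H.int _ hadd (by rw [smul_add, hpσP, hpP, add_zero])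
    have i2 : v (4 * px (σ • P - P) - e) ≤ 1 :=
      H.int _ hsub (by rw [smul_sub, hpσP, hpP, sub_zero])
    change ((4 * px (σ • P + P) - e) + (4 * px (σ • P - P) - e)) *
      ((4 * px (σ • P) - e) - (4 * px P - e)) ^ 2 = _ at hsum
    rw [← hsum, map_mul, map_pow, htσ, hvσ.symm.trans (congrArg v htσ)] at hrhs
    have hle : v ((4 * px (σ • P + P) - e) + (4 * px (σ • P - P) - e)) ≤ 1 := v_add_le_one i1 i2
    have hvt0 : v (4 * px P - e) ≠ 0 := (Valuation.ne_zero_iff v).mpr ht0
    have hσt : v (σ (4 * px P - e)) = v (4 * px P - e) := by rw [← htσ, hvσ]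
    rw [hσt] at hrhs
    have hcon : v ((4 * px (σ • P + P) - e) + (4 * px (σ • P - P) - e)) *
        v (σ (4 * px P - e) - (4 * px P - e)) ^ 2 < v (4 * px P - e) * v (4 * px P - e) := by
      calc _ ≤ 1 * v (σ (4 * px P - e) - (4 * px P - e)) ^ 2 := mul_le_mul_left hle _
        _ = v (σ (4 * px P - e) - (4 * px P - e)) * v (σ (4 * px P - e) - (4 * px P - e)) := by
            rw [one_mul, pow_two]
        _ ≤ v (4 * px P - e) * v (σ (4 * px P - e) - (4 * px P - e)) :=
            mul_le_mul_left hlt.le _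
        _ < v (4 * px P - e) * v (4 * px P - e) :=
            mul_lt_mul_of_pos_left hlt (zero_lt_iff.mpr hvt0)
    rw [hrhs] at hcon
    exact lt_irrefl _ hcon

end Fermat.Agent.H08
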